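import Fermat.Agent.S48.F1.Defs

/-!
# Tower A1 / A1-FF (helper332) — the division values `P_a` determine `±a`

`F1.divGenC K M a = F1.divGenC K M b` (`K` of characteristic `0`, `a, b ≠ 0`) implies `a = ±b`:
the least `n` with `divCoeff M a 12 n ≠ 0` is the least positive integer `≡ ±a` mod `M`.
-/

set_option autoImplicit false

noncomputable section

open PowerSeries HahnSeries ModularCurve

namespace Fermat.Agent.S48.H332

open Fermat.Agent.S48.F1

theorem divCoeff_twelve (M : ℕ) (a : ZMod M) (n : ℕ) :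
    divCoeff M a 12 n = ∑ m ∈ n.divisors,
      ((if ((m : ℕ) : ZMod M) = a then ((n / m : ℕ) : ℤ) ^ 11 else 0) +
        (if ((m : ℕ) : ZMod M) = -a then ((n / m : ℕ) : ℤ) ^ 11 else 0)) := by
  unfold divCoeff
  refine Finset.sum_congr rfl fun m _ => ?_
  norm_num

theorem divCoeff_term_nonneg (M : ℕ) (a : ZMod M) (n m : ℕ) :
    (0 : ℤ) ≤ (if ((m : ℕ) : ZMod M) = a then ((n / m : ℕ) : ℤ) ^ 11 else 0) +
        (if ((m : ℕ) : ZMod M) = -a then ((n / m : ℕ) : ℤ) ^ 11 else 0) := by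
  have h : (0 : ℤ) ≤ ((n / m : ℕ) : ℤ) ^ 11 := by positivity
  split_ifs <;> omega

theorem divCoeff_nonneg (M : ℕ) (a : ZMod M) (n : ℕ) : 0 ≤ divCoeff M a 12 n := by
  rw [divCoeff_twelve]
  exact Finset.sum_nonneg fun m _ => divCoeff_term_nonneg M a n m

theorem divCoeff_pos_of_dvd (M : ℕ) (a : ZMod M) {n m : ℕ} (hn : 0 < n) (hm : m ∣ n)
    (hma : ((m : ℕ) : ZMod M) = a ∨ ((m : ℕ) : ZMod M) = -a) : 0 < divCoeff M a 12 n := by
  rw [divCoeff_twelve]
  have hmem : m ∈ n.divisors := Nat.mem_divisors.mpr ⟨hm, hn.ne'⟩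
  refine lt_of_lt_of_le ?_
    (Finset.single_le_sum (fun i _ => divCoeff_term_nonneg M a n i) hmem)
  have hm0 : 0 < m := Nat.pos_of_dvd_of_pos hm hn
  have hq : 0 < n / m := Nat.div_pos (Nat.le_of_dvd hn hm) hm0
  have h : (0 : ℤ) < ((n / m : ℕ) : ℤ) ^ 11 := by positivity
  rcases hma with h1 | h1
  · rw [if_pos h1]
    split_ifs <;> omega
  · rw [if_pos h1]
    split_ifs <;> omega

theorem exists_dvd_of_divCoeff_ne_zero (M : ℕ) (a : ZMod M) {n : ℕ}
    (h : divCoeff M a 12 n ≠ 0) :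
    ∃ m, m ∣ n ∧ 0 < n ∧ (((m : ℕ) : ZMod M) = a ∨ ((m : ℕ) : ZMod M) = -a) := by
  rw [divCoeff_twelve] at h
  obtain ⟨m, hm, hne⟩ := Finset.exists_ne_zero_of_sum_ne_zero h
  have hm' := Nat.mem_divisors.mp hm
  refine ⟨m, hm'.1, Nat.pos_of_ne_zero hm'.2, ?_⟩
  by_contra hcon
  push_neg at hcon
  rw [if_neg hcon.1, if_neg hcon.2, add_zero] at hne
  exact hne rfl

/-- the least positive integer in the class `±a` is read off from the coefficients -/
theorem exists_least (M : ℕ) [NeZero M] {a : ZMod M} (ha : a ≠ 0) :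
    ∃ r : ℕ, (((r : ℕ) : ZMod M) = a ∨ ((r : ℕ) : ZMod M) = -a) ∧ divCoeff M a 12 r ≠ 0 ∧
      ∀ n, divCoeff M a 12 n ≠ 0 → r ≤ n := by
  classical
  have hex : ∃ n, divCoeff M a 12 n ≠ 0 := by
    refine ⟨a.val, ?_⟩
    have hpos : 0 < a.val := Nat.pos_of_ne_zero fun h => ha ((ZMod.val_eq_zero a).mp h)
    exact (divCoeff_pos_of_dvd M a hpos dvd_rfl (Or.inl (ZMod.natCast_zmod_val a))).ne'
  refine ⟨Nat.find hex, ?_, Nat.find_spec hex, fun n hn => Nat.find_min' hex hn⟩
  obtain ⟨m, hmr, hr, hma⟩ := exists_dvd_of_divCoeff_ne_zero M a (Nat.find_spec hex)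
  have hm0 : 0 < m := Nat.pos_of_dvd_of_pos hmr hr
  have hle : Nat.find hex ≤ m :=
    Nat.find_min' hex (divCoeff_pos_of_dvd M a hm0 dvd_rfl hma).ne'
  have heq : m = Nat.find hex := le_antisymm (Nat.le_of_dvd hr hmr) hle
  rw [← heq]
  exact hma

/-- **The coefficients `divCoeff M a 12` determine `±a`.** -/
theorem eq_or_eq_neg_of_divCoeff_eq (M : ℕ) [NeZero M] {a b : ZMod M} (ha : a ≠ 0) (hb : b ≠ 0)
    (h : ∀ n, divCoeff M a 12 n = divCoeff M b 12 n) : a = b ∨ a = -b := by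
  obtain ⟨r, hra, hr0, hrmin⟩ := exists_least M ha
  obtain ⟨r', hrb, hr0', hrmin'⟩ := exists_least M hb
  have h1 : r ≤ r' := hrmin r' (by rw [h]; exact hr0')
  have h2 : r' ≤ r := hrmin' r (by rw [← h]; exact hr0)
  have hrr : r = r' := le_antisymm h1 h2
  subst hrr
  have ha' : a = ((r : ℕ) : ZMod M) ∨ a = -((r : ℕ) : ZMod M) := by
    rcases hra with h3 | h3
    · exact Or.inl h3.symm
    · exact Or.inr (by rw [h3, neg_neg])
  have hb' : b = ((r : ℕ) : ZMod M) ∨ b = -((r : ℕ) : ZMod M) := by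
    rcases hrb with h4 | h4
    · exact Or.inl h4.symm
    · exact Or.inr (by rw [h4, neg_neg])
  rcases ha' with h3 | h3 <;> rcases hb' with h4 | h4
  · left; rw [h3, h4]
  · right; rw [h3, h4, neg_neg]
  · right; rw [h3, h4]
  · left; rw [h3, h4]

/-- `divSeries` is recovered from `divNum`. -/
theorem divNum_mul_etaUnit (M : ℕ) (a : ZMod M) :
    divNum M a * dedekindEtaUnit = divSeries M a 12 := by
  rw [divNum, mul_assoc, mul_comm dedekindEtaUnitInv, dedekindEtaUnit_mul_inv, mul_one]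

/-- **The division values determine `±a`** (coefficients in a ring of characteristic `0`). -/
theorem eq_or_eq_neg_of_divGenC_eq (K : Type*) [Field K] [CharZero K] (M : ℕ) [NeZero M]
    {a b : ZMod M} (ha : a ≠ 0) (hb : b ≠ 0) (h : divGenC K M a = divGenC K M b) :
    a = b ∨ a = -b := by
  apply eq_or_eq_neg_of_divCoeff_eq M ha hb
  have hs : (HahnSeries.single (-1 : ℤ) (1 : K)) ≠ 0 := by
    intro h0
    have := congrArg (fun s : LaurentSeries K => s.coeff (-1)) h0
    simp at this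
  unfold divGenC at h
  have h1 := mul_left_cancel₀ hs h
  have h2 : (divNum M a).map (Int.castRingHom K) = (divNum M b).map (Int.castRingHom K) :=
    HahnSeries.ofPowerSeries_injective h1
  have hinj : Function.Injective (PowerSeries.map (Int.castRingHom K)) := by
    intro x y hxy
    ext n
    have := congrArg (PowerSeries.coeff n) hxy
    simp only [PowerSeries.coeff_map, eq_intCast] at this
    exact_mod_cast this
  have h3 : divNum M a = divNum M b := hinj h2
  have h4 : divSeries M a 12 = divSeries M b 12 := by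
    rw [← divNum_mul_etaUnit, ← divNum_mul_etaUnit, h3]
  intro n
  have := congrArg (PowerSeries.coeff n) h4
  simpa using this

end Fermat.Agent.S48.H332
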