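import Fermat.Agent.S48.H332.PkgAvatar
import Fermat.Agent.S48.H332.F1Coeff
import Fermat.Agent.S48.H76.Avatar

/-!
# Tower A1 / A1-FF (helper332) — FF-ALG (degree) + DICT1-LOC for `F1 M`

The function field `ℚ̄·F1(M) = laurentBaseChange ℚ̄ (F1.F1 M)` of `X₁(M)` as an INSTANCE of the
generic package (`PkgDeg.lean`), with `Γ = ±Γ₁(M)` (`pmGamma1 M`), avatars `S24.H997.Jd d`
(of `j(q^d)`) and `H76.pFun M a` (of the division value `P_a`, helper76):

* `f1Data M : GenData M (pmGamma1 M) (f1Field M)`;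
* `f1_finiteDimensional`, `f1_finrank_eq : [ℚ̄·F1(M) : ℚ̄(j)] = [SL₂(ℤ) : ±Γ₁(M)]`;
* `f1Pkg M : GenPackage M (pmGamma1 M) (f1Field M)` — `LocalData` at every `j = a` and at `∞`.
-/

set_option autoImplicit false
set_option linter.style.haveILetI false
set_option linter.unusedVariables false
set_option linter.unusedSectionVars false

noncomputable section

open ModularCurve HahnSeries UpperHalfPlane CongruenceSubgroup
open scoped MatrixGroups Manifold Real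

namespace Fermat.Agent.S48.H332

open Fermat.Agent.S24 Fermat.Agent.S24.H997 Fermat.Agent.S24.Deg457
open Fermat.Agent.S24.H624 Fermat.Agent.S20.L1
open Fermat.Agent.S48.F1 Fermat.Agent.S48.H76

/-! ### The group `±Γ₁(M)` -/

theorem coe_zero_zero_mul_of_mem_Gamma0 {M : ℕ} {g h : SL(2, ℤ)} (hh : h ∈ Gamma0 M) :
    (((g * h) 0 0 : ℤ) : ZMod M) = ((g 0 0 : ℤ) : ZMod M) * ((h 0 0 : ℤ) : ZMod M) := by
  have h10 : ((h 1 0 : ℤ) : ZMod M) = 0 := Gamma0_mem.mp hh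
  have e : (g * h) 0 0 = g 0 0 * h 0 0 + g 0 1 * h 1 0 := by
    rw [Matrix.SpecialLinearGroup.coe_mul, Matrix.mul_apply, Fin.sum_univ_two]
  rw [e]
  push_cast
  rw [h10, mul_zero, add_zero]

theorem coe_mul_coe_eq_one_of_mem_Gamma0 {M : ℕ} {g : SL(2, ℤ)} (hg : g ∈ Gamma0 M) :
    ((g 0 0 : ℤ) : ZMod M) * ((g 1 1 : ℤ) : ZMod M) = 1 := by
  have h10 : ((g 1 0 : ℤ) : ZMod M) = 0 := Gamma0_mem.mp hg
  have h := Matrix.SpecialLinearGroup.det_coe g
  rw [Matrix.det_fin_two] at h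
  have h' := congrArg (fun z : ℤ => (z : ZMod M)) h
  simp only [Int.cast_sub, Int.cast_mul, Int.cast_one] at h'
  rw [h10, mul_zero, sub_zero] at h'
  exact h'

/-- The subgroup `±Γ₁(M) = {γ ∈ Γ₀(M) : γ₀₀ ≡ ±1 mod M}`. -/
def pmGamma1 (M : ℕ) : Subgroup SL(2, ℤ) where
  carrier := {g | g ∈ Gamma0 M ∧
    (((g 0 0 : ℤ) : ZMod M) = 1 ∨ ((g 0 0 : ℤ) : ZMod M) = -1)}
  mul_mem' := by
    rintro g h ⟨hg, hg1⟩ ⟨hh, hh1⟩
    refine ⟨mul_mem hg hh, ?_⟩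
    rw [coe_zero_zero_mul_of_mem_Gamma0 hh]
    rcases hg1 with h1 | h1 <;> rcases hh1 with h2 | h2 <;> rw [h1, h2] <;> simp
  one_mem' := ⟨one_mem _, Or.inl (by simp)⟩
  inv_mem' := by
    rintro g ⟨hg, hg1⟩
    refine ⟨inv_mem hg, ?_⟩
    have e00 : ((g⁻¹ : SL(2, ℤ)) 0 0 : ℤ) = g 1 1 := by
      rw [Matrix.SpecialLinearGroup.SL2_inv_expl]; rfl
    rw [e00]
    have hdet := coe_mul_coe_eq_one_of_mem_Gamma0 hg
    rcases hg1 with h1 | h1
    · left; rw [h1, one_mul] at hdet; exact hdet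
    · right
      rw [h1] at hdet
      have : ((g 1 1 : ℤ) : ZMod M) = -(-1 * ((g 1 1 : ℤ) : ZMod M)) := by ring
      rw [this, hdet]

theorem mem_pmGamma1 {M : ℕ} {g : SL(2, ℤ)} :
    g ∈ pmGamma1 M ↔ g ∈ Gamma0 M ∧
      (((g 0 0 : ℤ) : ZMod M) = 1 ∨ ((g 0 0 : ℤ) : ZMod M) = -1) := Iff.rfl

theorem pmGamma1_le_Gamma0 (M : ℕ) : pmGamma1 M ≤ Gamma0 M := fun _ h => h.1

theorem Gamma1_le_pmGamma1 (M : ℕ) : Gamma1 M ≤ pmGamma1 M := by
  intro g hg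
  exact ⟨Gamma1_in_Gamma0 M hg, Or.inl ((Gamma1_mem M g).mp hg).1⟩

theorem neg_one_mem_pmGamma1 (M : ℕ) : (-1 : SL(2, ℤ)) ∈ pmGamma1 M := by
  refine ⟨by rw [Gamma0_mem]; simp, Or.inr ?_⟩
  simp

/-- `g ∈ ±Γ₁(M)` iff `g ∈ Γ₁(M)` or `-g ∈ Γ₁(M)`. -/
theorem mem_pmGamma1_iff {M : ℕ} {g : SL(2, ℤ)} :
    g ∈ pmGamma1 M ↔ g ∈ Gamma1 M ∨ -g ∈ Gamma1 M := by
  constructor
  · rintro ⟨hg, h1 | h1⟩
    · left
      have hdet := coe_mul_coe_eq_one_of_mem_Gamma0 hg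
      rw [h1, one_mul] at hdet
      exact (Gamma1_mem M g).mpr ⟨h1, hdet, Gamma0_mem.mp hg⟩
    · right
      have hdet := coe_mul_coe_eq_one_of_mem_Gamma0 hg
      rw [h1] at hdet
      have h11 : ((g 1 1 : ℤ) : ZMod M) = -1 := by
        have : ((g 1 1 : ℤ) : ZMod M) = -(-1 * ((g 1 1 : ℤ) : ZMod M)) := by ring
        rw [this, hdet]
      refine (Gamma1_mem M (-g)).mpr ⟨?_, ?_, ?_⟩
      · simp [h1]
      · simp [h11]
      · have := Gamma0_mem.mp hg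
        simp [this]
  · rintro (h | h)
    · exact Gamma1_le_pmGamma1 M h
    · have h2 := (pmGamma1 M).mul_mem (neg_one_mem_pmGamma1 M) (Gamma1_le_pmGamma1 M h)
      have e : (-1 : SL(2, ℤ)) * -g = g := by simp
      rwa [e] at h2

instance finiteIndex_pmGamma1 (M : ℕ) [NeZero M] : (pmGamma1 M).FiniteIndex :=
  Subgroup.finiteIndex_of_le (Gamma1_le_pmGamma1 M)

instance finite_XG_pmGamma1 (M : ℕ) [NeZero M] : Finite (XG (pmGamma1 M)) :=
  Subgroup.finite_quotient_of_finiteIndex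

/-! ### The field -/

/-- the rational generators of `F1 M` -/
def f1Gens (M : ℕ) : Set (LaurentSeries ℚ) := divisorExpansions M ∪ divGens M

theorem jq_mem_f1Gens (M : ℕ) : jq ∈ f1Gens M := by
  have h := mem_divisorExpansions M (d := 1) (one_dvd M)
  rw [qExpand_one_apply] at h
  exact Or.inl h

/-- `ℚ̄·F1(M)` as a generic field. -/
def f1Field (M : ℕ) : GenField := GenField.ofRat (f1Gens M) (jq_mem_f1Gens M)

theorem f1Field_F (M : ℕ) : (f1Field M).F = laurentBaseChange Kbar (F1 M) := rfl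

theorem f1Field_S (M : ℕ) : (f1Field M).S = ⇑(coeffEmb Kbar) '' f1Gens M := rfl

/-! ### The avatars -/

theorem coeffMap_coeffEmb_divGen (M : ℕ) (a : ZMod M) :
    coeffMap ιK (coeffEmb Kbar (divGen M a)) = divGenC ℂ M a := by
  rw [coeffMap_coeffEmb', coeffEmb, ← divGenC_rat, coeffMap_divGenC]

/-- `pFun M a` is the avatar of `P_a`. -/
theorem isAvatar_pFun (M : ℕ) [NeZero M] {a : ZMod M} (ha : a ≠ 0) :
    IsAvatar M (coeffEmb Kbar (divGen M a)) (pFun M a) := by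
  refine IsAvatar.of_infExp_one (pFun_mem_holN M a) ?_
  rw [coeffMap_coeffEmb_divGen]
  exact infExp_pFun M ha

theorem pFun_smul_pmGamma1 (M : ℕ) [NeZero M] (a : ZMod M) (g : SL(2, ℤ))
    (hg : g ∈ pmGamma1 M) (τ : ℍ) : pFun M a (g • τ) = pFun M a τ := by
  have h := congrFun (compSL_pFun M a g hg.1) τ
  rw [compSL_apply] at h
  rw [h]
  rcases hg.2 with h1 | h1
  · rw [h1, mul_one]
  · rw [h1, mul_neg, mul_one, pFun_neg]

/-- every generator has a `±Γ₁(M)`-invariant avatar -/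
theorem f1_avatars (M : ℕ) [NeZero M] (s : LaurentSeries Kbar) (hs : s ∈ (f1Field M).S) :
    ∃ f, IsAvatar M s f ∧ ∀ g ∈ pmGamma1 M, ∀ τ : ℍ, f (g • τ) = f τ := by
  obtain ⟨x, hx, rfl⟩ := hs
  rcases hx with hx | hx
  · obtain ⟨d, hd0, hd, rfl⟩ := hx
    exact ⟨Jd d, isAvatar_Jd M d hd, fun g hg τ => Jd_inv M d hd g hg.1 τ⟩
  · obtain ⟨a, ha, rfl⟩ := hx
    exact ⟨pFun M a, isAvatar_pFun M ha, fun g hg τ => pFun_smul_pmGamma1 M a g hg τ⟩

/-- `P_a = P_b` as functions implies `a = ±b`. -/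
theorem eq_or_eq_neg_of_pFun_eq (M : ℕ) [NeZero M] {a b : ZMod M} (ha : a ≠ 0) (hb : b ≠ 0)
    (h : pFun M a = pFun M b) : a = b ∨ a = -b := by
  apply eq_or_eq_neg_of_divGenC_eq ℂ M ha hb
  exact (infExp_pFun M ha).unique' (infExp_pFun M hb) (fun τ => congrFun h τ)

/-- an element of `SL₂(ℤ)` fixing all the avatars lies in `±Γ₁(M)` -/
theorem f1_distinct (M : ℕ) [NeZero M] (g : SL(2, ℤ))
    (h : ∀ s, s ∈ (f1Field M).S → ∀ f, IsAvatar M s f → ∀ τ : ℍ, f (g • τ) = f τ) :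
    g ∈ pmGamma1 M := by
  have hg0 : g ∈ Gamma0 M := by
    apply Jd_distinct M
    have hM : (coeffEmb Kbar (qExpand ℚ M jq)) ∈ (f1Field M).S :=
      ⟨_, Or.inl (mem_divisorExpansions M dvd_rfl), rfl⟩
    exact h _ hM (Jd M) (isAvatar_Jd M M dvd_rfl)
  refine ⟨hg0, ?_⟩
  by_cases h1 : (1 : ZMod M) = 0
  · -- `M = 1`: `ZMod M` is trivial
    left
    have hsub : ∀ x y : ZMod M, x = y := by
      intro x y
      rw [← mul_one x, ← mul_one y, h1, mul_zero, mul_zero]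
    exact hsub _ _
  · set u : ZMod M := ((g 0 0 : ℤ) : ZMod M) with hu
    have hu0 : u ≠ 0 := by
      intro h0
      have hdet := coe_mul_coe_eq_one_of_mem_Gamma0 hg0
      rw [← hu, h0, zero_mul] at hdet
      exact h1 hdet.symm
    have hP : (coeffEmb Kbar (divGen M 1)) ∈ (f1Field M).S :=
      ⟨_, Or.inr (divGen_mem_divGens M h1), rfl⟩
    have hfix := h _ hP (pFun M 1) (isAvatar_pFun M h1)
    have hcomp := compSL_pFun M 1 g hg0
    rw [one_mul, ← hu] at hcomp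
    have heq : pFun M u = pFun M 1 := by
      rw [← hcomp]
      funext τ
      exact hfix τ
    exact eq_or_eq_neg_of_pFun_eq M hu0 h1 heq

/-! ### The instance -/

/-- **The analytic input for `ℚ̄·F1(M)`**, `Γ = ±Γ₁(M)`. -/
def f1Data (M : ℕ) [NeZero M] : GenData M (pmGamma1 M) (f1Field M) :=
  GenData.ofAvatars M (pmGamma1 M) (f1Field M) (f1_avatars M) (f1_distinct M)

/-- the avatar of `P_a` in `f1Data` is `pFun M a` -/
theorem f1Data_G_divGen (M : ℕ) [NeZero M] {a : ZMod M} (ha : a ≠ 0) :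
    (f1Data M).G (coeffEmb Kbar (divGen M a)) = pFun M a :=
  avatarOf_eq (isAvatar_pFun M ha)

/-- the avatar of `j(q^d)` in `f1Data` is `τ ↦ j(dτ)` -/
theorem f1Data_G_Jd (M : ℕ) [NeZero M] (d : ℕ) [NeZero d] (hd : d ∣ M) :
    (f1Data M).G (coeffEmb Kbar (qExpand ℚ d jq)) = Jd d :=
  avatarOf_eq (isAvatar_Jd M d hd)

/-- **The generic modular package of `ℚ̄·F1(M)`.** -/
def f1Pkg (M : ℕ) [NeZero M] : GenPackage M (pmGamma1 M) (f1Field M) := (f1Data M).pkg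

/-- `j` as an element of `ℚ̄·F1(M)`. -/
def f1J (M : ℕ) : ↥(laurentBaseChange Kbar (F1 M)) := (f1Field M).jF

theorem coe_f1J (M : ℕ) : ((f1J M : ↥(laurentBaseChange Kbar (F1 M))) : LaurentSeries Kbar)
    = coeffEmb Kbar jq := rfl

/-- **FF-ALG (finiteness)**: `ℚ̄·F1(M)` is finite over `ℚ̄(j)`. -/
theorem f1_finiteDimensional (M : ℕ) [NeZero M] :
    FiniteDimensional ↥(IntermediateField.adjoin Kbar {f1J M})
      ↥(laurentBaseChange Kbar (F1 M)) :=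
  (f1Data M).finiteDimensional

/-- **FF-ALG (degree)**: `[ℚ̄·F1(M) : ℚ̄(j)] = [SL₂(ℤ) : ±Γ₁(M)]`. -/
theorem f1_finrank_eq (M : ℕ) [NeZero M] :
    Module.finrank ↥(IntermediateField.adjoin Kbar {f1J M}) ↥(laurentBaseChange Kbar (F1 M))
      = Nat.card (SL(2, ℤ) ⧸ pmGamma1 M) :=
  (f1Data M).finrank_eq

/-- **DICT1-LOC (finite points)**: local uniformisation data of `ℚ̄·F1(M)` over `j = a`. -/
def f1DataFin (M : ℕ) [NeZero M] (a : Kbar) :
    LocalData Kbar ↥(laurentBaseChange Kbar (F1 M)) ℂ (SL(2, ℤ) ⧸ pmGamma1 M)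
      (f1J M - algebraMap Kbar ↥(laurentBaseChange Kbar (F1 M)) a) :=
  (f1Pkg M).dataFin a

/-- **DICT1-LOC (cusps)**: local uniformisation data of `ℚ̄·F1(M)` over `j = ∞`. -/
def f1DataInf (M : ℕ) [NeZero M] :
    LocalData Kbar ↥(laurentBaseChange Kbar (F1 M)) ℂ (SL(2, ℤ) ⧸ pmGamma1 M) (f1J M)⁻¹ :=
  (f1Pkg M).dataInf

end Fermat.Agent.S48.H332
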