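import Fermat.Agent.S48.H332.F1Inst
import Fermat.Agent.S48.H642.DictKum
import Fermat.Agent.S48.H556.RawES1D

/-!
# S48 / Tower A1 — input `HasPD1` of the row chain (helper332)

`hasPD1 : H556.HasPD1`, i.e. `ℚ̄ · F1 M` has principal divisors for every `M ≠ 0`
(from `f1_finiteDimensional` and the generic `H642.hasPrincipalDivisors_gen`).
-/

set_option autoImplicit false

noncomputable section

namespace Fermat.Agent.S48.H332

open AlgebraicCurve

/-- `ℚ̄ · F1 M` has principal divisors. -/
theorem hasPrincipalDivisors_F1Bar (M : ℕ) [NeZero M] :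
    HasPrincipalDivisors (AlgebraicClosure ℚ) (F1.F1Bar M) := by
  haveI : FiniteDimensional ↥(IntermediateField.adjoin S24.Kbar {(f1Field M).jF})
      ↥(f1Field M).F := (f1Data M).finiteDimensional
  exact H642.hasPrincipalDivisors_gen (f1Field M)

/-- **`HasPD1`**, verbatim. -/
theorem hasPD1 : H556.HasPD1 := by
  intro M hM
  haveI : NeZero M := ⟨hM⟩
  exact hasPrincipalDivisors_F1Bar M

end Fermat.Agent.S48.H332
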