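import Fermat.Agent.S29.H332.Growth

/-!
# Tower A1 / A1-KUM / K1 — Kummer functions for ANY subgroup `Γ ≤ SL(2,ℤ)` of level `M`

Generic version of `Fermat.Agent.S29.H332.KummerFun` (which is for `Γ₀(N)`): `Γ` is any subgroup of
`SL(2,ℤ)` containing all conjugates of `T ^ M` (e.g. `Γ(M) ≤ Γ`: `Γ₁(M)`, `Γ₀(M)`, `Γ_H`), and
`χ : Γ →* ℂˣ` is a unitary character which is trivial on all elements of trace `±2`.

* `HasLevel Γ M`, `hasLevel_of_Gamma_le`, `hasLevel_Gamma1`, `hasLevel_Gamma0`;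
* `GParTriv χ`, `GHasChar χ h`; `GHasChar.mem_holN` : a holomorphic function with character `χ`
  and moderate growth lies in the S24 ring `holN M` (expansions in `exp(2πiτ/M)` at all cusps);
* `gkfun Γ χ = E^χ₁₂ / (c Δ)` (`c = kumConst Γ χ ∈ {1, 2}`): holomorphic, character `χ`,
  in `holN M`, `Δ · gkfun → 1` at `i∞`, not identically zero, all translates of exponential
  growth; if `T ∈ Γ` the expansion at `i∞` in `q = exp(2πiτ)` has order `-1` and leading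
  coefficient `1`;
* `IsGoodFor Γ f` (holomorphic, `Γ`-invariant, all `SL(2,ℤ)`-translates of exponential growth —
  the analogue of `S24.H648.goodRing N` for `Γ`), `gkfun_pow_isGoodFor`.
-/

set_option autoImplicit false
set_option linter.unusedSectionVars false

noncomputable section

open UpperHalfPlane EisensteinSeries ModularForm Filter Topology HahnSeries ModularCurve
open scoped Matrix MatrixGroups Manifold

namespace Fermat.Agent.S48.H332

open Fermat.Agent.S24 Fermat.Agent.S24.H997 Fermat.Agent.S24.H624 Fermat.Agent.S24.H648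
open Fermat.Agent.S29.H332

local notation "Δ" => ModularForm.discriminant

/-! ### Subgroups of level `M` -/

/-- `Γ` contains all conjugates of the powers of `T ^ M` (true if `Γ(M) ≤ Γ`). -/
def HasLevel (Γ : Subgroup SL(2, ℤ)) (M : ℕ) : Prop :=
  ∀ (g : SL(2, ℤ)) (m : ℤ), g * ModularGroup.T ^ ((M : ℤ) * m) * g⁻¹ ∈ Γ

theorem hasLevel_of_Gamma_le {Γ : Subgroup SL(2, ℤ)} {M : ℕ}
    (h : CongruenceSubgroup.Gamma M ≤ Γ) : HasLevel Γ M := by
  intro g m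
  apply h
  have hT : ModularGroup.T ^ ((M : ℤ) * m) ∈ CongruenceSubgroup.Gamma M := by
    have := CongruenceSubgroup.ModularGroup_T_pow_mem_Gamma (M : ℤ) ((M : ℤ) * m)
      (dvd_mul_right _ _)
    simpa using this
  exact (CongruenceSubgroup.Gamma_normal M).conj_mem _ hT g

theorem gamma_le_Gamma1 (M : ℕ) : CongruenceSubgroup.Gamma M ≤ CongruenceSubgroup.Gamma1 M := by
  intro A hA
  rw [CongruenceSubgroup.Gamma_mem] at hA
  rw [CongruenceSubgroup.Gamma1_mem]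
  exact ⟨hA.1, hA.2.2.2, hA.2.2.1⟩

theorem hasLevel_Gamma1 (M : ℕ) : HasLevel (CongruenceSubgroup.Gamma1 M) M :=
  hasLevel_of_Gamma_le (gamma_le_Gamma1 M)

theorem hasLevel_Gamma0 (M : ℕ) : HasLevel (CongruenceSubgroup.Gamma0 M) M :=
  hasLevel_of_Gamma_le ((gamma_le_Gamma1 M).trans (CongruenceSubgroup.Gamma1_in_Gamma0 M))

theorem HasLevel.mono {Γ Γ' : Subgroup SL(2, ℤ)} {M : ℕ} (h : HasLevel Γ M) (hle : Γ ≤ Γ') :
    HasLevel Γ' M := fun g m => hle (h g m)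

theorem HasLevel.conj_T_pow {Γ : Subgroup SL(2, ℤ)} {M : ℕ} (h : HasLevel Γ M) (g : SL(2, ℤ)) :
    g * ModularGroup.T ^ ((M : ℕ) : ℤ) * g⁻¹ ∈ Γ := by
  simpa using h g 1

/-! ### Functions with a parabolic character -/

section Character

variable {Γ : Subgroup SL(2, ℤ)}

/-- `χ` is trivial on all elements of `Γ` of trace `±2` (cusp stabilisers and `-1`). -/
def GParTriv (χ : Γ →* ℂˣ) : Prop :=
  ∀ γ : Γ, ((γ : SL(2, ℤ)).1.trace = 2 ∨ (γ : SL(2, ℤ)).1.trace = -2) → χ γ = 1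

/-- `h(γ τ) = χ(γ) h(τ)` for all `γ ∈ Γ`. -/
def GHasChar (χ : Γ →* ℂˣ) (h : ℍ → ℂ) : Prop :=
  ∀ (γ : Γ) (τ : ℍ), h ((γ : SL(2, ℤ)) • τ) = (χ γ : ℂ) * h τ

variable {χ : Γ →* ℂˣ} {h : ℍ → ℂ}

/-- If `g T^w g⁻¹ ∈ Γ`, then `h ∘ g` is invariant under `τ ↦ τ + w`. -/
theorem GHasChar.compSL_T_zpow (hh : GHasChar χ h) (hχ : GParTriv χ) (g : SL(2, ℤ))
    (w : ℤ) (hw : g * ModularGroup.T ^ w * g⁻¹ ∈ Γ) (τ : ℍ) :
    compSL g h (ModularGroup.T ^ w • τ) = compSL g h τ := by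
  have h1 : g • (ModularGroup.T ^ w • τ) = (g * ModularGroup.T ^ w * g⁻¹) • (g • τ) := by
    rw [← mul_smul, ← mul_smul, mul_assoc, mul_assoc, inv_mul_cancel, mul_one]
  have h2 := hh ⟨_, hw⟩ (g • τ)
  rw [hχ ⟨_, hw⟩ (Or.inl (trace_conj_T_zpow g w))] at h2
  simp only [compSL_apply]
  rw [h1, h2, Units.val_one, one_mul]

/-- `h ∘ g` is `w`-periodic if `g T^w g⁻¹ ∈ Γ`. -/
theorem GHasChar.compSL_vadd (hh : GHasChar χ h) (hχ : GParTriv χ) (g : SL(2, ℤ))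
    (w : ℕ) (hw : g * ModularGroup.T ^ (w : ℤ) * g⁻¹ ∈ Γ)
    (τ : ℍ) : compSL g h (((w : ℤ) : ℝ) +ᵥ τ) = compSL g h τ := by
  have := hh.compSL_T_zpow hχ g (w : ℤ) hw τ
  rwa [UpperHalfPlane.modular_T_zpow_smul] at this

theorem GHasChar.periodic (hh : GHasChar χ h) (hχ : GParTriv χ) (g : SL(2, ℤ))
    (w : ℕ) (hw : g * ModularGroup.T ^ (w : ℤ) * g⁻¹ ∈ Γ) :
    Function.Periodic (compSL g h ∘ ofComplex) (w : ℝ) :=
  periodic_comp_ofComplex_of_vadd (hh.compSL_vadd hχ g w hw)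

/-- Expansion at the cusp `g∞` in the local parameter of width `w` (any `w` with
`g T^w g⁻¹ ∈ Γ`): a holomorphic function with a parabolic character such that
`Δ^m · (h ∘ g)` is bounded at `i∞` has a Laurent expansion in `exp(2πiτ/w)`. -/
theorem GHasChar.infExp_cuspExp (hh : GHasChar χ h) (hχ : GParTriv χ)
    (hhol : MDiff h) (m : ℕ) (g : SL(2, ℤ)) (w : ℕ) [NeZero w]
    (hw : g * ModularGroup.T ^ (w : ℤ) * g⁻¹ ∈ Γ)
    (hbd : IsBoundedAtImInfty (fun τ => Δ τ ^ m * compSL g h τ)) :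
    InfExp w (compSL g h) (cuspExp h m g w) := by
  have hN : (0 : ℝ) < w := by exact_mod_cast Nat.pos_of_ne_zero (NeZero.ne w)
  set F : ℍ → ℂ := fun τ => Δ τ ^ m * compSL g h τ with hF
  have hcomp : MDiff (compSL g h) := (precompSL g ⟨h, hhol⟩).2
  have hFhol : MDiff F := (mdiff_delta_pow m).mul hcomp
  have hFper : Function.Periodic (F ∘ ofComplex) (w : ℝ) := by
    intro z
    have h1 := hh.periodic hχ g w hw z
    have h2 := periodic_comp_ofComplex_of_vadd (f := Δ) (N := w) (fun τ => delta_vadd w τ) z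
    simp only [Function.comp_apply, hF] at h1 h2 ⊢
    rw [h1, h2]
  have hsum := fun τ => UpperHalfPlane.hasSum_qExpansion hN hFper hFhol hbd τ
  have hP : InfPExp w F (UpperHalfPlane.qExpansion (w : ℝ) F) := by
    intro τ
    simpa [infZ, smul_eq_mul] using hsum τ
  have hE : InfExp w F (HahnSeries.ofPowerSeries ℤ ℂ (UpperHalfPlane.qExpansion (w : ℝ) F)) := by
    have := hP.infExp 0
    simp only [zpow_zero, one_mul] at this
    have e : (HahnSeries.single (0 : ℤ) (1 : ℂ)) = 1 := rfl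
    rwa [e, one_mul] at this
  have hDinv : InfExp w (fun τ => (Δ τ)⁻¹ ^ m)
      (qExpand ℂ w Fermat.Agent.S28.H568.dInvS ^ m) :=
    Fermat.Agent.S28.H568.InfExp.pow' (infExp_deltaInv w) m
  have : compSL g h = fun τ => (Δ τ)⁻¹ ^ m * F τ := by
    funext τ
    simp only [hF]
    have hΔ : Δ τ ≠ 0 := ModularForm.discriminant_ne_zero τ
    rw [← mul_assoc, ← mul_pow, inv_mul_cancel₀ hΔ, one_pow, one_mul]
  rw [this]
  exact hDinv.mul hE

/-- Abstract membership criterion at one cusp. -/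
theorem GHasChar.compSL_mem_expRing {M : ℕ} [NeZero M] (hΓ : HasLevel Γ M)
    (hh : GHasChar χ h) (hχ : GParTriv χ)
    (hhol : MDiff h) (m : ℕ) (g : SL(2, ℤ))
    (hbd : IsBoundedAtImInfty (fun τ => Δ τ ^ m * compSL g h τ)) :
    compSL g h ∈ expRing M :=
  (hh.infExp_cuspExp hχ hhol m g M (hΓ.conj_T_pow g) hbd).mem_expRing

/-- Abstract membership criterion: a holomorphic function with a parabolic character of a group
of level `M` such that `Δ^m · (h ∘ g)` is bounded at `i∞` for every `g ∈ SL(2,ℤ)` lies in the S24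
ring `holN M`. -/
theorem GHasChar.mem_holN {M : ℕ} [NeZero M] (hΓ : HasLevel Γ M)
    (hh : GHasChar χ h) (hχ : GParTriv χ)
    (hhol : MDiff h) (m : ℕ)
    (hbd : ∀ g : SL(2, ℤ), IsBoundedAtImInfty (fun τ => Δ τ ^ m * compSL g h τ)) :
    h ∈ holN M :=
  ⟨hhol, fun g => hh.compSL_mem_expRing hΓ hχ hhol m g (hbd g)⟩

/-- Powers: `h ^ p` is `Γ`-invariant if `χ ^ p = 1`. -/
theorem GHasChar.pow_invariant (hh : GHasChar χ h) {p : ℕ}
    (hp : ∀ γ, χ γ ^ p = 1) (γ : Γ) (τ : ℍ) :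
    h ((γ : SL(2, ℤ)) • τ) ^ p = h τ ^ p := by
  rw [hh γ τ, mul_pow, ← Units.val_pow_eq_pow_val, hp γ, Units.val_one, one_mul]

/-- `h ∘ g` is invariant under `δ` if `g δ g⁻¹ ∈ Γ` and `χ (g δ g⁻¹) = 1`. -/
theorem GHasChar.compSL_compSL (hh : GHasChar χ h) (g δ : SL(2, ℤ))
    (hδ : g * δ * g⁻¹ ∈ Γ) (hχ : χ ⟨_, hδ⟩ = 1) :
    compSL δ (compSL g h) = compSL g h := by
  funext τ
  simp only [compSL_apply]
  have h1 : g • (δ • τ) = (g * δ * g⁻¹) • (g • τ) := by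
    rw [← mul_smul, ← mul_smul, mul_assoc, mul_assoc, inv_mul_cancel, mul_one]
  have h2 := hh ⟨_, hδ⟩ (g • τ)
  rw [hχ, Units.val_one, one_mul] at h2
  rw [h1, h2]

/-- `χ` is trivial on the elements of finite order. -/
def GEllTriv (χ : Γ →* ℂˣ) : Prop :=
  ∀ (γ : Γ) (n : ℕ), 0 < n → γ ^ n = 1 → χ γ = 1

/-- Conjugates of elements of finite order have finite order. -/
theorem GEllTriv.conj (hχ : GEllTriv χ) {ε : SL(2, ℤ)} {n : ℕ} (hn : 0 < n) (hε : ε ^ n = 1)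
    (g : SL(2, ℤ)) (k : ℕ) (hk : g * ε ^ k * g⁻¹ ∈ Γ) :
    χ ⟨_, hk⟩ = 1 := by
  refine hχ _ n hn ?_
  apply Subtype.ext
  rw [SubgroupClass.coe_pow, Subgroup.coe_mk, OneMemClass.coe_one]
  have : (g * ε ^ k * g⁻¹) ^ n = g * (ε ^ k) ^ n * g⁻¹ := conj_pow
  rw [this, ← pow_mul, mul_comm, pow_mul, hε, one_pow, mul_one, mul_inv_cancel]

/-- Conjugates of powers of `T` are parabolic. -/
theorem GParTriv.conj_T (hχ : GParTriv χ) (g : SL(2, ℤ)) (k : ℕ)
    (hk : g * ModularGroup.T ^ k * g⁻¹ ∈ Γ) :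
    χ ⟨_, hk⟩ = 1 := by
  apply hχ
  left
  have := trace_conj_T_zpow g (k : ℤ)
  rwa [zpow_natCast] at this

end Character

/-! ### Good functions for `Γ` -/

/-- The analogue of `S24.H648.goodRing N` for a subgroup `Γ`: holomorphic, `Γ`-invariant, all
`SL(2,ℤ)`-translates of at most exponential growth at `i∞`. -/
def IsGoodFor (Γ : Subgroup SL(2, ℤ)) (f : ℍ → ℂ) : Prop :=
  MDiff f ∧ (∀ γ ∈ Γ, ∀ τ : ℍ, f (γ • τ) = f τ) ∧
    ∀ g : SL(2, ℤ), ExpGrowth (fun τ => f (g • τ))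

theorem isGoodFor_Gamma0_iff {N : ℕ} {f : ℍ → ℂ} :
    IsGoodFor (CongruenceSubgroup.Gamma0 N) f ↔ f ∈ goodRing N := Iff.rfl

theorem IsGoodFor.mono {Γ Γ' : Subgroup SL(2, ℤ)} {f : ℍ → ℂ} (h : IsGoodFor Γ' f)
    (hle : Γ ≤ Γ') : IsGoodFor Γ f :=
  ⟨h.1, fun γ hγ τ => h.2.1 γ (hle hγ) τ, h.2.2⟩

/-- A `Γ`-invariant element of `holN M` is good for `Γ`. -/
theorem isGoodFor_of_mem_holN {Γ : Subgroup SL(2, ℤ)} {M : ℕ} [NeZero M] {f : ℍ → ℂ}
    (hf : f ∈ holN M) (hinv : ∀ γ ∈ Γ, ∀ τ : ℍ, f (γ • τ) = f τ) : IsGoodFor Γ f := by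
  refine ⟨hf.1, hinv, fun g => ?_⟩
  obtain ⟨φ, hφ⟩ := hf.2 g
  exact expGrowth_of_infExp hφ

/-- Every element of `holN M` has all its translates of exponential growth. -/
theorem expGrowth_of_mem_holN {M : ℕ} [NeZero M] {f : ℍ → ℂ} (hf : f ∈ holN M)
    (g : SL(2, ℤ)) : ExpGrowth (fun τ => f (g • τ)) := by
  obtain ⟨φ, hφ⟩ := hf.2 g
  exact expGrowth_of_infExp hφ

/-! ### The Kummer function -/

section Kummer

variable (Γ : Subgroup SL(2, ℤ)) (χ : Γ →* ℂˣ)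

/-- The value at `i∞` of the twisted Eisenstein series of even weight: `1` or `2`. -/
def kumConst : ℂ := 1 + twistWeight Γ χ ![0, -1]

/-- The Kummer function `E^χ₁₂ / (c Δ)`. -/
def gkfun : ℍ → ℂ :=
  fun τ => twistedEis Γ χ 12 τ / (kumConst Γ χ * Δ τ)

variable {Γ χ}

theorem GParTriv.trivialOnUnipotent (hχ : GParTriv χ) : TrivialOnUnipotent χ := by
  intro γ hγ
  apply hχ γ
  left
  have h10 : (γ : SL(2, ℤ)).1 1 0 = 0 := by
    have := congrFun hγ 0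
    simpa [botRow] using this
  have h11 : (γ : SL(2, ℤ)).1 1 1 = 1 := by
    have := congrFun hγ 1
    simpa [botRow] using this
  have hdet := (γ : SL(2, ℤ)).det_coe
  rw [Matrix.det_fin_two, h10, h11, mul_zero, sub_zero, mul_one] at hdet
  rw [Matrix.trace_fin_two, hdet, h11]
  rfl

theorem twistWeight_neg_eq (hχ : GParTriv χ) :
    twistWeight Γ χ ![0, -1] = 0 ∨ twistWeight Γ χ ![0, -1] = 1 := by
  by_cases h : ∃ γ : Γ, botRow (γ : SL(2, ℤ)) = ![0, -1]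
  · right
    obtain ⟨γ, hγ⟩ := h
    have h1 := twistWeight_botRow hχ.trivialOnUnipotent γ
    rw [hγ] at h1
    have h10 : (γ : SL(2, ℤ)).1 1 0 = 0 := by
      have := congrFun hγ 0
      simpa [botRow] using this
    have h11 : (γ : SL(2, ℤ)).1 1 1 = -1 := by
      have := congrFun hγ 1
      simpa [botRow] using this
    have hdet := (γ : SL(2, ℤ)).det_coe
    rw [Matrix.det_fin_two, h10, h11, mul_zero, sub_zero] at hdet
    have htr : (γ : SL(2, ℤ)).1.trace = -2 := by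
      rw [Matrix.trace_fin_two, h11]
      linarith
    rw [h1, hχ γ (Or.inr htr), inv_one, Units.val_one]
  · left
    exact twistWeight_of_not _ h

theorem kumConst_ne_zero (hχ : GParTriv χ) : kumConst Γ χ ≠ 0 := by
  unfold kumConst
  rcases twistWeight_neg_eq hχ with h | h <;> rw [h] <;> norm_num

theorem compSL_gkfun (g : SL(2, ℤ)) :
    compSL g (gkfun Γ χ)
      = fun τ => (twistedEis Γ χ 12 ∣[(12 : ℤ)] g) τ / (kumConst Γ χ * Δ τ) := by
  funext τ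
  have hd : denom g τ ≠ 0 := denom_ne_zero g τ
  have hΔ : Δ τ ≠ 0 := ModularForm.discriminant_ne_zero τ
  simp only [compSL_apply, gkfun]
  rw [SL_slash_apply, delta_smul, zpow_neg]
  by_cases hc : kumConst Γ χ = 0
  · simp [hc]
  · field_simp

theorem gHasChar_gkfun (hχ : GParTriv χ) : GHasChar χ (gkfun Γ χ) := by
  intro γ τ
  have h := congrFun (compSL_gkfun (Γ := Γ) (χ := χ) (γ : SL(2, ℤ))) τ
  rw [compSL_apply] at h
  rw [h, twistedEis_slash hχ.trivialOnUnipotent]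
  simp only [Pi.smul_apply, smul_eq_mul, gkfun]
  ring

theorem mdiff_gkfun (hχ : GParTriv χ) (hnorm : ∀ γ, ‖(χ γ : ℂ)‖ = 1) :
    MDiff (gkfun Γ χ) := by
  have hE : MDiff (twistedEis Γ χ 12) :=
    twistedEis_mdifferentiable hχ.trivialOnUnipotent hnorm (by norm_num)
  rw [UpperHalfPlane.mdifferentiable_iff] at hE ⊢
  have hΔ := UpperHalfPlane.mdifferentiable_iff.mp mdiff_delta
  have h2 : DifferentiableOn ℂ (fun z => kumConst Γ χ * (Δ ∘ ofComplex) z) {z : ℂ | 0 < z.im} :=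
    hΔ.const_mul _
  refine (hE.div h2 ?_).congr ?_
  · intro z hz
    exact mul_ne_zero (kumConst_ne_zero hχ) (ModularForm.discriminant_ne_zero _)
  · intro z hz
    simp [gkfun]

theorem isBoundedAtImInfty_delta_mul_gkfun (hχ : GParTriv χ)
    (hnorm : ∀ γ, ‖(χ γ : ℂ)‖ = 1) (g : SL(2, ℤ)) :
    IsBoundedAtImInfty (fun τ => Δ τ ^ 1 * compSL g (gkfun Γ χ) τ) := by
  have hE := twistedEis_slash_isBoundedAtImInfty hχ.trivialOnUnipotent hnorm
    (k := 12) (by norm_num) g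
  have : (fun τ => Δ τ ^ 1 * compSL g (gkfun Γ χ) τ)
      = (fun _ : ℍ => (kumConst Γ χ)⁻¹) * (twistedEis Γ χ 12 ∣[(12 : ℤ)] g) := by
    funext τ
    have hΔ : Δ τ ≠ 0 := ModularForm.discriminant_ne_zero τ
    have hc := kumConst_ne_zero hχ
    rw [compSL_gkfun]
    simp only [Pi.mul_apply, pow_one]
    field_simp
  rw [this]
  exact (Filter.const_boundedAtFilter _ _).mul hE

/-- **K1 (generic)**: the Kummer function lies in the S24 ring `holN M`. -/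
theorem gkfun_mem_holN {M : ℕ} [NeZero M] (hΓ : HasLevel Γ M) (hχ : GParTriv χ)
    (hnorm : ∀ γ, ‖(χ γ : ℂ)‖ = 1) :
    gkfun Γ χ ∈ holN M :=
  (gHasChar_gkfun hχ).mem_holN hΓ hχ (mdiff_gkfun hχ hnorm) 1
    (isBoundedAtImInfty_delta_mul_gkfun hχ hnorm)

theorem delta_mul_gkfun (hχ : GParTriv χ) (τ : ℍ) :
    Δ τ ^ 1 * compSL 1 (gkfun Γ χ) τ = twistedEis Γ χ 12 τ / kumConst Γ χ := by
  have hΔ : Δ τ ≠ 0 := ModularForm.discriminant_ne_zero τ
  have hc := kumConst_ne_zero hχ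
  rw [compSL_one]
  simp only [gkfun, pow_one]
  field_simp

theorem tendsto_delta_mul_gkfun (hχ : GParTriv χ) (hnorm : ∀ γ, ‖(χ γ : ℂ)‖ = 1) :
    Tendsto (fun τ => Δ τ ^ 1 * compSL 1 (gkfun Γ χ) τ) atImInfty (𝓝 1) := by
  have h := tendsto_twistedEis hχ.trivialOnUnipotent hnorm (k := 12) (by norm_num)
  have e : (1 : ℂ) + (-1) ^ (12 : ℤ) * twistWeight Γ χ ![0, -1] = kumConst Γ χ := by
    unfold kumConst
    norm_num
  rw [e] at h
  have h2 := h.div_const (kumConst Γ χ)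
  rw [div_self (kumConst_ne_zero hχ)] at h2
  refine h2.congr fun τ => ?_
  rw [delta_mul_gkfun hχ]

/-- The Kummer function is not identically zero. -/
theorem gkfun_ne_zero (hχ : GParTriv χ) (hnorm : ∀ γ, ‖(χ γ : ℂ)‖ = 1) :
    gkfun Γ χ ≠ 0 := by
  intro h0
  have h := tendsto_delta_mul_gkfun hχ hnorm
  have h' : (fun τ : ℍ => Δ τ ^ 1 * compSL 1 (gkfun Γ χ) τ) = fun _ => (0 : ℂ) := by
    funext τ
    rw [h0, compSL_one]
    simp
  rw [h'] at h
  have := tendsto_nhds_unique h tendsto_const_nhds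
  exact one_ne_zero this

theorem exists_gkfun_ne_zero (hχ : GParTriv χ) (hnorm : ∀ γ, ‖(χ γ : ℂ)‖ = 1) :
    ∃ τ : ℍ, gkfun Γ χ τ ≠ 0 := by
  by_contra hne
  exact gkfun_ne_zero hχ hnorm (funext fun τ => by_contra fun h => hne ⟨τ, h⟩)

/-- All translates of the Kummer function have exponential growth. -/
theorem expGrowth_gkfun {M : ℕ} [NeZero M] (hΓ : HasLevel Γ M) (hχ : GParTriv χ)
    (hnorm : ∀ γ, ‖(χ γ : ℂ)‖ = 1) (g : SL(2, ℤ)) :
    ExpGrowth (fun τ => gkfun Γ χ (g • τ)) :=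
  expGrowth_of_mem_holN (gkfun_mem_holN hΓ hχ hnorm) g

/-- **K1 → MERO (generic)**: the `p`-th power of the Kummer function is good for `Γ`. -/
theorem gkfun_pow_isGoodFor {M : ℕ} [NeZero M] (hΓ : HasLevel Γ M) (hχ : GParTriv χ)
    (hnorm : ∀ γ, ‖(χ γ : ℂ)‖ = 1) {p : ℕ} (hp : ∀ γ, χ γ ^ p = 1) :
    IsGoodFor Γ (gkfun Γ χ ^ p) := by
  refine isGoodFor_of_mem_holN (pow_mem (gkfun_mem_holN hΓ hχ hnorm) p) ?_
  intro γ hγ τ
  exact (gHasChar_gkfun hχ).pow_invariant hp ⟨γ, hγ⟩ τ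

/-! ### The expansion at `i∞` when `T ∈ Γ` -/

variable (Γ χ) in
/-- The expansion of the Kummer function at `i∞` in `q = exp(2πiτ)` (meaningful if `T ∈ Γ`). -/
def gkexp : LaurentSeries ℂ := cuspExp (gkfun Γ χ) 1 1 1

theorem T_conj_mem (hT : ModularGroup.T ∈ Γ) :
    (1 : SL(2, ℤ)) * ModularGroup.T ^ ((1 : ℕ) : ℤ) * (1 : SL(2, ℤ))⁻¹ ∈ Γ := by
  simpa using hT

theorem infExp_gkfun (hT : ModularGroup.T ∈ Γ) (hχ : GParTriv χ)
    (hnorm : ∀ γ, ‖(χ γ : ℂ)‖ = 1) :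
    InfExp 1 (gkfun Γ χ) (gkexp Γ χ) := by
  have h := (gHasChar_gkfun hχ).infExp_cuspExp hχ (mdiff_gkfun hχ hnorm) 1 1 1
    (T_conj_mem hT) (isBoundedAtImInfty_delta_mul_gkfun hχ hnorm 1)
  rwa [compSL_one] at h

theorem coeff_zero_qExpansion_gkfun (hT : ModularGroup.T ∈ Γ) (hχ : GParTriv χ)
    (hnorm : ∀ γ, ‖(χ γ : ℂ)‖ = 1) :
    (UpperHalfPlane.qExpansion ((1 : ℕ) : ℝ)
      (fun τ => Δ τ ^ 1 * compSL 1 (gkfun Γ χ) τ)).coeff 0 = 1 := by
  have hper : Function.Periodic ((fun τ => Δ τ ^ 1 * compSL 1 (gkfun Γ χ) τ) ∘ ofComplex)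
      ((1 : ℕ) : ℝ) := by
    intro z
    have h1 := (gHasChar_gkfun hχ).periodic hχ 1 1 (T_conj_mem hT) z
    have h2 := periodic_comp_ofComplex_of_vadd (f := Δ) (N := 1) (fun τ => delta_vadd (1 : ℕ) τ) z
    simp only [Function.comp_apply] at h1 h2 ⊢
    rw [h1, h2]
  have hhol : MDiff (fun τ => Δ τ ^ 1 * compSL 1 (gkfun Γ χ) τ) :=
    (mdiff_delta_pow 1).mul (precompSL 1 ⟨_, mdiff_gkfun hχ hnorm⟩).2
  have han := UpperHalfPlane.analyticAt_cuspFunction_zero (h := ((1 : ℕ) : ℝ)) (by norm_num)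
    hper hhol (isBoundedAtImInfty_delta_mul_gkfun hχ hnorm 1)
  rw [UpperHalfPlane.qExpansion_coeff_zero (by norm_num) han hper]
  exact (tendsto_delta_mul_gkfun hχ hnorm).limUnder_eq

theorem gkexp_eq (hT : ModularGroup.T ∈ Γ) (hχ : GParTriv χ)
    (hnorm : ∀ γ, ‖(χ γ : ℂ)‖ = 1) :
    (gkexp Γ χ).order = -1 ∧ (gkexp Γ χ).leadingCoeff = 1 := by
  set ψ := UpperHalfPlane.qExpansion ((1 : ℕ) : ℝ)
      (fun τ => Δ τ ^ 1 * compSL 1 (gkfun Γ χ) τ) with hψ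
  have hc : PowerSeries.coeff 0 ψ = 1 := coeff_zero_qExpansion_gkfun hT hχ hnorm
  have hord : ψ.order = ((0 : ℕ) : ℕ∞) := by
    rw [PowerSeries.order_eq_nat]
    exact ⟨by rw [hc]; exact one_ne_zero, fun i hi => absurd hi (Nat.not_lt_zero i)⟩
  have h1 : (HahnSeries.ofPowerSeries ℤ ℂ ψ).order = 0 := by
    simpa using order_ofPowerSeries hord
  have h2 : (HahnSeries.ofPowerSeries ℤ ℂ ψ).leadingCoeff = 1 := by
    rw [leadingCoeff_ofPowerSeries hord, hc]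
  have h3 : (qExpand ℂ 1 Fermat.Agent.S28.H568.dInvS ^ 1).order = -1 := by
    rw [pow_one, inf_qExpand_order, Fermat.Agent.S28.H568.dInvS_order]
    simp
  have h4 : (qExpand ℂ 1 Fermat.Agent.S28.H568.dInvS ^ 1).leadingCoeff = 1 := by
    rw [pow_one, inf_qExpand_leadingCoeff, Fermat.Agent.S28.H568.dInvS_leadingCoeff]
  have hx : (qExpand ℂ 1 Fermat.Agent.S28.H568.dInvS ^ 1) ≠ 0 := by
    intro h0
    rw [h0] at h4
    simp at h4
  have hy : (HahnSeries.ofPowerSeries ℤ ℂ ψ) ≠ 0 := by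
    intro h0
    rw [h0] at h2
    simp at h2
  refine ⟨?_, ?_⟩
  · show (_ * _ : LaurentSeries ℂ).order = -1
    rw [HahnSeries.order_mul hx hy, h3, h1, add_zero]
  · show (_ * _ : LaurentSeries ℂ).leadingCoeff = 1
    rw [HahnSeries.leadingCoeff_mul, h4, h2, one_mul]

theorem gkexp_ne_zero (hT : ModularGroup.T ∈ Γ) (hχ : GParTriv χ)
    (hnorm : ∀ γ, ‖(χ γ : ℂ)‖ = 1) :
    gkexp Γ χ ≠ 0 := by
  intro h0
  have := (gkexp_eq hT hχ hnorm).2
  rw [h0] at this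
  simp at this

/-- The `q`-expansion of the Kummer function (S24 `H708` form). -/
theorem hasQExp_gkfun (hT : ModularGroup.T ∈ Γ) (hχ : GParTriv χ)
    (hnorm : ∀ γ, ‖(χ γ : ℂ)‖ = 1) :
    Fermat.Agent.S24.H708.HasQExp 1 (gkfun Γ χ) (gkexp Γ χ) :=
  hasQExp_of_infExp (mdiff_gkfun hχ hnorm) (infExp_gkfun hT hχ hnorm)

/-- The `q`-expansion of the `p`-th power of the Kummer function. -/
theorem hasQExp_gkfun_pow (hT : ModularGroup.T ∈ Γ) (hχ : GParTriv χ)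
    (hnorm : ∀ γ, ‖(χ γ : ℂ)‖ = 1) (p : ℕ) :
    Fermat.Agent.S24.H708.HasQExp 1 (gkfun Γ χ ^ p) (gkexp Γ χ ^ p) :=
  (hasQExp_gkfun hT hχ hnorm).pow p

theorem T_mem_Gamma1 (M : ℕ) : ModularGroup.T ∈ CongruenceSubgroup.Gamma1 M := by
  rw [CongruenceSubgroup.Gamma1_mem]
  simp [ModularGroup.T]

end Kummer

end Fermat.Agent.S48.H332
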