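import Fermat.Agent.S48.H332.KumGen

/-!
# Tower A1 / A1-KUM / K1 — twisted functions for additive characters `Γ → ℤ/m`, generic `Γ`

For ANY subgroup `Γ ≤ SL(2,ℤ)` of level `M` (`HasLevel Γ M`, e.g. `Γ(M) ≤ Γ`) and any additive map
`c : Γ → ZMod m` (`m ≥ 1`) vanishing on all elements of trace `±2`:

* `GIsParAdd.char` : the character `γ ↦ exp(2πi c(γ)/m)`;
* `GIsParAdd.tfun` : the twisted function `U_c = E^{χ_c}₁₂ / (cΔ)`;
* **`exists_twisted`** (generic piece K1): there is `U : ℍ → ℂ`, holomorphic, not identically zero,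
  `U(γτ) = ζ_m ^ c(γ) · U(τ)` (`ζ_m = exp(2πi/m)`), `U ∈ holN M`, every `SL(2,ℤ)`-translate of
  `U` of exponential growth, and `U ^ m` good for `Γ`.
* `exists_twisted_Gamma1` : the same for `Γ₁(M)`, with the `q`-expansion at `i∞` (simple pole,
  leading coefficient `1`).
-/

set_option autoImplicit false
set_option linter.unusedSectionVars false

noncomputable section

open UpperHalfPlane HahnSeries ModularCurve Complex
open scoped Real MatrixGroups Manifold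

namespace Fermat.Agent.S48.H332

open Fermat.Agent.S24 Fermat.Agent.S24.H997 Fermat.Agent.S24.H624 Fermat.Agent.S24.H648
open Fermat.Agent.S29.H332

variable {Γ : Subgroup SL(2, ℤ)} {m : ℕ} [NeZero m]

/-- An additive character `Γ → ℤ/m` vanishing on the elements of trace `±2`. -/
structure GIsParAdd (c : Γ → ZMod m) : Prop where
  map_mul : ∀ γ γ' : Γ, c (γ * γ') = c γ + c γ'
  parabolic : ∀ γ : Γ,
    ((γ : SL(2, ℤ)).1.trace = 2 ∨ (γ : SL(2, ℤ)).1.trace = -2) → c γ = 0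

namespace GIsParAdd

variable {c c' : Γ → ZMod m}

theorem map_one (hc : GIsParAdd c) : c 1 = 0 := by
  have h := hc.map_mul 1 1
  rw [mul_one] at h
  exact left_eq_add.mp h

/-- The multiplicative character `γ ↦ exp(2πi c(γ)/m)`. -/
def char (hc : GIsParAdd c) : Γ →* ℂˣ :=
  MonoidHom.toHomUnits
    { toFun := fun γ => ZMod.stdAddChar (c γ)
      map_one' := by rw [hc.map_one, AddChar.map_zero_eq_one]
      map_mul' := fun γ γ' => by rw [hc.map_mul, AddChar.map_add_eq_mul] }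

@[simp]
theorem char_apply (hc : GIsParAdd c) (γ : Γ) :
    (hc.char γ : ℂ) = ZMod.stdAddChar (c γ) := rfl

theorem norm_char (hc : GIsParAdd c) (γ : Γ) : ‖(hc.char γ : ℂ)‖ = 1 := by
  rw [char_apply, ZMod.stdAddChar_apply]
  exact Circle.norm_coe _

theorem char_pow (hc : GIsParAdd c) (γ : Γ) : hc.char γ ^ m = 1 := by
  apply Units.ext
  rw [Units.val_pow_eq_pow_val, char_apply, ← AddChar.map_nsmul_eq_pow, Units.val_one]
  have : m • c γ = 0 := by
    rw [nsmul_eq_mul]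
    simp
  rw [this, AddChar.map_zero_eq_one]

theorem char_eq_one_iff (hc : GIsParAdd c) (γ : Γ) : hc.char γ = 1 ↔ c γ = 0 := by
  constructor
  · intro h
    have h1 : (hc.char γ : ℂ) = 1 := by rw [h, Units.val_one]
    rw [char_apply, ← AddChar.map_zero_eq_one (ZMod.stdAddChar (N := m))] at h1
    exact ZMod.injective_stdAddChar h1
  · intro h
    apply Units.ext
    rw [char_apply, h, AddChar.map_zero_eq_one, Units.val_one]

theorem gParTriv (hc : GIsParAdd c) : GParTriv hc.char := by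
  intro γ hγ
  rw [char_eq_one_iff]
  exact hc.parabolic γ hγ

theorem gEllTriv (hc : GIsParAdd c)
    (hell : ∀ (γ : Γ) (n : ℕ), 0 < n → γ ^ n = 1 → c γ = 0) :
    GEllTriv hc.char := by
  intro γ n hn hγ
  rw [char_eq_one_iff]
  exact hell γ n hn hγ

/-- Additive characters to `ℤ/m` kill the elements of finite order prime to `m`. -/
theorem eq_zero_of_pow_eq_one (hc : GIsParAdd c) (γ : Γ) (n : ℕ) (hn : Nat.Coprime n m)
    (hγ : γ ^ n = 1) : c γ = 0 := by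
  have hpow : ∀ k : ℕ, c (γ ^ k) = k • c γ := by
    intro k
    induction k with
    | zero => simpa using hc.map_one
    | succ k ih => rw [pow_succ, hc.map_mul, ih, succ_nsmul]
  have h1 : n • c γ = 0 := by rw [← hpow, hγ, hc.map_one]
  have h2 : m • c γ = 0 := by
    rw [nsmul_eq_mul]
    simp
  obtain ⟨a, b, hab⟩ : ∃ a b : ℤ, a * n + b * m = 1 := by
    have := Int.gcd_eq_gcd_ab (n : ℤ) (m : ℤ)
    have hg : Int.gcd (n : ℤ) (m : ℤ) = 1 := by
      rw [Int.gcd_natCast_natCast]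
      exact hn
    rw [hg] at this
    exact ⟨Int.gcdA n m, Int.gcdB n m, by push_cast at this; linarith⟩
  have : c γ = (a * n + b * m) • c γ := by rw [hab, one_smul]
  rw [this, add_smul, mul_smul, mul_smul, natCast_zsmul, natCast_zsmul, h1, h2]
  simp

theorem add (hc : GIsParAdd c) (hc' : GIsParAdd c') : GIsParAdd (c + c') where
  map_mul γ γ' := by
    simp only [Pi.add_apply, hc.map_mul, hc'.map_mul]
    abel
  parabolic γ hγ := by
    simp only [Pi.add_apply, hc.parabolic γ hγ, hc'.parabolic γ hγ, add_zero]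

theorem char_add (hc : GIsParAdd c) (hc' : GIsParAdd c') :
    (hc.add hc').char = hc.char * hc'.char := by
  ext γ
  simp [AddChar.map_add_eq_mul]

/-- The twisted function of an additive parabolic character. -/
def tfun (hc : GIsParAdd c) : ℍ → ℂ := gkfun Γ hc.char

/-- Its `q`-expansion at `i∞` (meaningful if `T ∈ Γ`). -/
def texp (hc : GIsParAdd c) : LaurentSeries ℂ := gkexp Γ hc.char

theorem mdiff_tfun (hc : GIsParAdd c) : MDiff hc.tfun :=
  mdiff_gkfun hc.gParTriv hc.norm_char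

theorem tfun_mem_holN {M : ℕ} [NeZero M] (hΓ : HasLevel Γ M) (hc : GIsParAdd c) :
    hc.tfun ∈ holN M :=
  gkfun_mem_holN hΓ hc.gParTriv hc.norm_char

theorem tfun_smul (hc : GIsParAdd c) (γ : Γ) (τ : ℍ) :
    hc.tfun ((γ : SL(2, ℤ)) • τ) = ZMod.stdAddChar (c γ) * hc.tfun τ :=
  gHasChar_gkfun hc.gParTriv γ τ

theorem gHasChar_tfun (hc : GIsParAdd c) : GHasChar hc.char hc.tfun :=
  gHasChar_gkfun hc.gParTriv

theorem tfun_ne_zero (hc : GIsParAdd c) : hc.tfun ≠ 0 :=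
  gkfun_ne_zero hc.gParTriv hc.norm_char

theorem exists_tfun_ne_zero (hc : GIsParAdd c) : ∃ τ : ℍ, hc.tfun τ ≠ 0 :=
  exists_gkfun_ne_zero hc.gParTriv hc.norm_char

theorem expGrowth_tfun {M : ℕ} [NeZero M] (hΓ : HasLevel Γ M) (hc : GIsParAdd c)
    (g : SL(2, ℤ)) : ExpGrowth (fun τ => hc.tfun (g • τ)) :=
  expGrowth_gkfun hΓ hc.gParTriv hc.norm_char g

theorem tfun_pow_isGoodFor {M : ℕ} [NeZero M] (hΓ : HasLevel Γ M) (hc : GIsParAdd c) :
    IsGoodFor Γ (hc.tfun ^ m) :=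
  gkfun_pow_isGoodFor hΓ hc.gParTriv hc.norm_char hc.char_pow

theorem hasQExp_tfun (hT : ModularGroup.T ∈ Γ) (hc : GIsParAdd c) :
    Fermat.Agent.S24.H708.HasQExp 1 hc.tfun hc.texp :=
  hasQExp_gkfun hT hc.gParTriv hc.norm_char

theorem infExp_tfun (hT : ModularGroup.T ∈ Γ) (hc : GIsParAdd c) :
    InfExp 1 hc.tfun hc.texp :=
  infExp_gkfun hT hc.gParTriv hc.norm_char

theorem texp_order (hT : ModularGroup.T ∈ Γ) (hc : GIsParAdd c) : hc.texp.order = -1 :=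
  (gkexp_eq hT hc.gParTriv hc.norm_char).1

theorem texp_leadingCoeff (hT : ModularGroup.T ∈ Γ) (hc : GIsParAdd c) :
    hc.texp.leadingCoeff = 1 :=
  (gkexp_eq hT hc.gParTriv hc.norm_char).2

theorem texp_ne_zero (hT : ModularGroup.T ∈ Γ) (hc : GIsParAdd c) : hc.texp ≠ 0 :=
  gkexp_ne_zero hT hc.gParTriv hc.norm_char

end GIsParAdd

/-- `exp(2πi/m) ^ (a.val) = stdAddChar a`. -/
theorem exp_pow_val_eq_stdAddChar (a : ZMod m) :
    Complex.exp (2 * Real.pi * Complex.I / m) ^ a.val = ZMod.stdAddChar a := by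
  have h := ZMod.stdAddChar_coe (N := m) (a.val : ℤ)
  rw [Int.cast_natCast, ZMod.natCast_zmod_val] at h
  rw [h, ← Complex.exp_nat_mul]
  congr 1
  push_cast
  ring

/-- **Generic piece K1.**  `Γ` any subgroup of `SL(2,ℤ)` of level `M`, `c : Γ → ℤ/m` additive and
zero on the elements of trace `±2`.  Then there is a twisted function of character `c`. -/
theorem exists_twisted {M : ℕ} [NeZero M] (hΓ : HasLevel Γ M) {c : Γ → ZMod m}
    (hmul : ∀ γ γ' : Γ, c (γ * γ') = c γ + c γ')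
    (hpar : ∀ γ : Γ,
      ((γ : SL(2, ℤ)).1.trace = 2 ∨ (γ : SL(2, ℤ)).1.trace = -2) → c γ = 0) :
    ∃ U : ℍ → ℂ, MDiff U ∧ (∃ τ : ℍ, U τ ≠ 0) ∧
      (∀ (γ : Γ) (τ : ℍ), U ((γ : SL(2, ℤ)) • τ)
        = Complex.exp (2 * Real.pi * Complex.I / m) ^ (c γ).val * U τ) ∧
      U ∈ holN M ∧ (∀ g : SL(2, ℤ), ExpGrowth (fun τ => U (g • τ))) ∧
      IsGoodFor Γ (fun τ => U τ ^ m) := by
  have hc : GIsParAdd c := ⟨hmul, hpar⟩
  refine ⟨hc.tfun, hc.mdiff_tfun, hc.exists_tfun_ne_zero, fun γ τ => ?_, hc.tfun_mem_holN hΓ,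
    hc.expGrowth_tfun hΓ, hc.tfun_pow_isGoodFor hΓ⟩
  rw [exp_pow_val_eq_stdAddChar]
  exact hc.tfun_smul γ τ

/-- **Generic piece K1 with `q`-expansion** (`T ∈ Γ`): moreover `U` has a `q`-expansion at `i∞`
(in `q = exp(2πiτ)`) with a simple pole and leading coefficient `1`. -/
theorem exists_twisted_qexp {M : ℕ} [NeZero M] (hΓ : HasLevel Γ M) (hT : ModularGroup.T ∈ Γ)
    {c : Γ → ZMod m}
    (hmul : ∀ γ γ' : Γ, c (γ * γ') = c γ + c γ')
    (hpar : ∀ γ : Γ,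
      ((γ : SL(2, ℤ)).1.trace = 2 ∨ (γ : SL(2, ℤ)).1.trace = -2) → c γ = 0) :
    ∃ (U : ℍ → ℂ) (φ : LaurentSeries ℂ), MDiff U ∧ (∃ τ : ℍ, U τ ≠ 0) ∧
      (∀ (γ : Γ) (τ : ℍ), U ((γ : SL(2, ℤ)) • τ)
        = Complex.exp (2 * Real.pi * Complex.I / m) ^ (c γ).val * U τ) ∧
      U ∈ holN M ∧ (∀ g : SL(2, ℤ), ExpGrowth (fun τ => U (g • τ))) ∧
      IsGoodFor Γ (fun τ => U τ ^ m) ∧
      Fermat.Agent.S24.H708.HasQExp 1 U φ ∧ φ.order = -1 ∧ φ.leadingCoeff = 1 := by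
  have hc : GIsParAdd c := ⟨hmul, hpar⟩
  refine ⟨hc.tfun, hc.texp, hc.mdiff_tfun, hc.exists_tfun_ne_zero, fun γ τ => ?_,
    hc.tfun_mem_holN hΓ, hc.expGrowth_tfun hΓ, hc.tfun_pow_isGoodFor hΓ, hc.hasQExp_tfun hT,
    hc.texp_order hT, hc.texp_leadingCoeff hT⟩
  rw [exp_pow_val_eq_stdAddChar]
  exact hc.tfun_smul γ τ

/-- **Piece K1 for `Γ₁(M)`.** -/
theorem exists_twisted_Gamma1 (M : ℕ) [NeZero M] {c : CongruenceSubgroup.Gamma1 M → ZMod m}
    (hmul : ∀ γ γ' : CongruenceSubgroup.Gamma1 M, c (γ * γ') = c γ + c γ')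
    (hpar : ∀ γ : CongruenceSubgroup.Gamma1 M,
      ((γ : SL(2, ℤ)).1.trace = 2 ∨ (γ : SL(2, ℤ)).1.trace = -2) → c γ = 0) :
    ∃ (U : ℍ → ℂ) (φ : LaurentSeries ℂ), MDiff U ∧ (∃ τ : ℍ, U τ ≠ 0) ∧
      (∀ (γ : CongruenceSubgroup.Gamma1 M) (τ : ℍ), U ((γ : SL(2, ℤ)) • τ)
        = Complex.exp (2 * Real.pi * Complex.I / m) ^ (c γ).val * U τ) ∧
      U ∈ holN M ∧ (∀ g : SL(2, ℤ), ExpGrowth (fun τ => U (g • τ))) ∧
      IsGoodFor (CongruenceSubgroup.Gamma1 M) (fun τ => U τ ^ m) ∧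
      Fermat.Agent.S24.H708.HasQExp 1 U φ ∧ φ.order = -1 ∧ φ.leadingCoeff = 1 :=
  exists_twisted_qexp (hasLevel_Gamma1 M) (T_mem_Gamma1 M) hmul hpar

end Fermat.Agent.S48.H332
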