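import Fermat.Agent.S48.H332.KumGenChar
import Fermat.Agent.S48.Kum.Top

/-!
# Tower A1 / A1-KUM — LEAF `k1` (helper332)

`leafK1 : ∀ (M : ℕ) [NeZero M] (ℓ : ℕ), ℓ.Prime → Kum.PieceK1 (Gamma1 M) ℓ`
= field `k1` of `Kum.Leaves` (`Fermat/Agent/S48/Kum/M4b1.lean`) VERBATIM, and the generic form
`pieceK1_of_hasLevel` for any subgroup `Γ` of level `M` and any modulus `p ≠ 0`.
-/

set_option autoImplicit false

noncomputable section

open ModularCurve AlgebraicCurve UpperHalfPlane CongruenceSubgroup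
open scoped MatrixGroups Manifold

namespace Fermat.Agent.S48.H332

open Fermat.Agent.S24 Fermat.Agent.S29 Fermat.Agent.S48.Kum

/-- **Piece K1, generic**: `Γ` any subgroup of level `M` (all conjugates of `T ^ M` in `Γ`,
e.g. `Γ(M) ≤ Γ`), `p ≠ 0`. -/
theorem pieceK1_of_hasLevel {Γ : Subgroup SL(2, ℤ)} {M : ℕ} [NeZero M] (hΓ : HasLevel Γ M)
    (p : ℕ) [NeZero p] : PieceK1 Γ p := by
  intro c hc
  obtain ⟨U, hm, hne, hchar, -, -, hgood⟩ := exists_twisted hΓ hc.map_mul hc.parabolic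
  exact ⟨U, ⟨hm, hne, fun γ τ => hchar γ τ, hgood⟩⟩

/-- **LEAF `k1`** of `Kum.Leaves`, verbatim. -/
theorem leafK1 (M : ℕ) [NeZero M] (ℓ : ℕ) (hℓ : ℓ.Prime) : PieceK1 (Gamma1 M) ℓ :=
  haveI : NeZero ℓ := ⟨hℓ.ne_zero⟩
  pieceK1_of_hasLevel (hasLevel_Gamma1 M) ℓ

end Fermat.Agent.S48.H332
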