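import Fermat.Agent.S48.H332.PkgDeg

/-!
# Tower A1 / A1-FF, piece PKG-GEN (helper332) — `GenData` from avatars

`GenData.ofAvatars`: to build the analytic input `GenData M Γ P` it suffices to give, for every
generator `s ∈ P.S`, SOME function `f ∈ holN M`, `Γ`-invariant, with expansion `s(z^M)` at `i∞`
(the avatar is then unique: `avatarOf`), and to check that an element of `SL₂(ℤ)` fixing all the
avatars lies in `Γ`.
-/

set_option autoImplicit false
set_option linter.style.haveILetI false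
set_option linter.unusedVariables false
set_option linter.unusedSectionVars false

noncomputable section

open ModularCurve HahnSeries UpperHalfPlane
open scoped MatrixGroups Manifold Real

namespace Fermat.Agent.S48.H332

open Fermat.Agent.S24 Fermat.Agent.S24.H997 Fermat.Agent.S24.Deg457
open Fermat.Agent.S24.H624 Fermat.Agent.S20.L1

/-- `f` is an avatar of the series `s ∈ ℚ̄((q))` at level `M`: `f ∈ holN M` with expansion
`s(z^M)` at `i∞` (`z = exp(2πiτ/M)`, coefficients embedded by `ιK`). -/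
def IsAvatar (M : ℕ) [NeZero M] (s : LaurentSeries Kbar) (f : ℍ → ℂ) : Prop :=
  f ∈ holN M ∧ InfExp M f (HolBase.Φ M s)

theorem IsAvatar.unique {M : ℕ} [NeZero M] {s : LaurentSeries Kbar} {f g : ℍ → ℂ}
    (hf : IsAvatar M s f) (hg : IsAvatar M s g) : f = g :=
  hf.2.fun_unique hg.2

/-- avatars from `q`-expansions -/
theorem IsAvatar.of_infExp_one {M : ℕ} [NeZero M] {s : LaurentSeries Kbar} {f : ℍ → ℂ}
    (hf : f ∈ holN M) (he : InfExp 1 f (coeffMap ιK s)) : IsAvatar M s f :=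
  ⟨hf, infExp_Φ he M⟩

open Classical in
/-- THE avatar of a series (`0` if there is none). -/
def avatarOf (M : ℕ) [NeZero M] (s : LaurentSeries Kbar) : ℍ → ℂ :=
  if h : ∃ f, IsAvatar M s f then h.choose else 0

theorem avatarOf_eq {M : ℕ} [NeZero M] {s : LaurentSeries Kbar} {f : ℍ → ℂ}
    (hf : IsAvatar M s f) : avatarOf M s = f := by
  have h : ∃ f, IsAvatar M s f := ⟨f, hf⟩
  rw [avatarOf, dif_pos h]
  exact h.choose_spec.unique hf

theorem isAvatar_avatarOf {M : ℕ} [NeZero M] {s : LaurentSeries Kbar}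
    (h : ∃ f, IsAvatar M s f) : IsAvatar M s (avatarOf M s) := by
  obtain ⟨f, hf⟩ := h
  rw [avatarOf_eq hf]
  exact hf

/-- the `j`-function is the avatar of `j` -/
theorem isAvatar_jFun (M : ℕ) [NeZero M] : IsAvatar M jBar jFun := by
  have h1 : Jd 1 ∈ holN M := Jd_mem_holN M 1 (one_dvd M)
  rw [Jd_one] at h1
  refine IsAvatar.of_infExp_one h1 ?_
  have h2 : coeffMap ιK jBar = infJq := coeffMap_JK ιK
  rw [h2]
  exact infExp_jFun

/-- the function `τ ↦ j(dτ)` is the avatar of `j(q^d)`, `d ∣ M` -/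
theorem isAvatar_Jd (M : ℕ) [NeZero M] (d : ℕ) [NeZero d] (hd : d ∣ M) :
    IsAvatar M (coeffEmb Kbar (qExpand ℚ d jq)) (Jd d) := by
  refine ⟨Jd_mem_holN M d hd, ?_⟩
  rw [(holBase M).Φ_gen d hd]
  exact expInf_spec (holToExp M ((holBase M).JH d hd))

/-- **`GenData` from avatars.** -/
def GenData.ofAvatars (M : ℕ) [NeZero M] (Γ : Subgroup SL(2, ℤ)) (P : GenField)
    (hav : ∀ s, s ∈ P.S → ∃ f, IsAvatar M s f ∧ ∀ g ∈ Γ, ∀ τ : ℍ, f (g • τ) = f τ)
    (hdist : ∀ g : SL(2, ℤ),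
      (∀ s, s ∈ P.S → ∀ f, IsAvatar M s f → ∀ τ : ℍ, f (g • τ) = f τ) → g ∈ Γ) :
    GenData M Γ P where
  G := avatarOf M
  G_mem s hs := by
    obtain ⟨f, hf, -⟩ := hav s hs
    rw [avatarOf_eq hf]
    exact hf.1
  G_j := avatarOf_eq (isAvatar_jFun M)
  G_inv s hs g hg τ := by
    obtain ⟨f, hf, hinv⟩ := hav s hs
    rw [avatarOf_eq hf]
    exact hinv g hg τ
  G_distinct g h := by
    apply hdist
    intro s hs f hf τ
    have := h s hs τ
    rwa [avatarOf_eq hf] at this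
  G_exp s hs := by
    obtain ⟨f, hf, -⟩ := hav s hs
    rw [avatarOf_eq hf]
    exact hf.2

theorem GenData.ofAvatars_G {M : ℕ} [NeZero M] {Γ : Subgroup SL(2, ℤ)} {P : GenField}
    (hav : ∀ s, s ∈ P.S → ∃ f, IsAvatar M s f ∧ ∀ g ∈ Γ, ∀ τ : ℍ, f (g • τ) = f τ)
    (hdist : ∀ g : SL(2, ℤ),
      (∀ s, s ∈ P.S → ∀ f, IsAvatar M s f → ∀ τ : ℍ, f (g • τ) = f τ) → g ∈ Γ)
    {s : LaurentSeries Kbar} {f : ℍ → ℂ} (hf : IsAvatar M s f) :
    (GenData.ofAvatars M Γ P hav hdist).G s = f :=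
  avatarOf_eq hf

end Fermat.Agent.S48.H332
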