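import Fermat.Agent.S48.H332.PkgFrac

/-!
# Tower A1 / A1-FF, piece PKG-GEN (helper332) — generic analytic interface and the bridge

GENERIC port of `S24/Mod/H997Bridge.lean`.  `GenBase M Γ P` packages a ring `Hol` of functions
`ℍ → ℂ`, stable under `SL(2,ℤ)`, containing for every generator `s ∈ P.S` an *avatar* `G s`,
invariant under `Γ`, such that the avatars jointly distinguish the cosets of `Γ`, together with ONE
injective expansion ring hom `qexp : Hol →+* ℂ((z))` (expansion at `i∞` in `z = q^{1/M}`) with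
`qexp (G s) = s(z^M)` (coefficients embedded by `ιK`).

From this we construct the *bridge* `e : ℚ̄[S] →+* Hol` (injective, `e s = G s`).
-/

set_option autoImplicit false

noncomputable section

open ModularCurve HahnSeries UpperHalfPlane
open scoped MatrixGroups

namespace Fermat.Agent.S48.H332

open Fermat.Agent.S24 Fermat.Agent.S24.H997

/-- Generic analytic interface: level of the expansion variable `M`, invariance group `Γ`
(necessarily containing `-1`), generated field `P`. -/
structure GenBase (M : ℕ) [NeZero M] (Γ : Subgroup SL(2, ℤ)) (P : GenField) where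
  /-- the ring of nice functions on `ℍ` -/
  Hol : Subring (ℍ → ℂ)
  const_mem : ∀ c : ℂ, (fun _ : ℍ => c) ∈ Hol
  comp_mem : ∀ (g : SL(2, ℤ)) (f : ℍ → ℂ), f ∈ Hol → compSL g f ∈ Hol
  /-- the avatar of a generator -/
  G : LaurentSeries Kbar → ℍ → ℂ
  G_mem : ∀ s, s ∈ P.S → G s ∈ Hol
  G_j_inv : ∀ (g : SL(2, ℤ)) (τ : ℍ), G jBar (g • τ) = G jBar τ
  G_inv : ∀ s, s ∈ P.S → ∀ g ∈ Γ, ∀ τ : ℍ, G s (g • τ) = G s τ
  G_distinct : ∀ g : SL(2, ℤ), (∀ s, s ∈ P.S → ∀ τ : ℍ, G s (g • τ) = G s τ) → g ∈ Γ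
  /-- expansion at `i∞` in the variable `z = q^{1/M}` -/
  qexp : Hol →+* LaurentSeries ℂ
  qexp_injective : Function.Injective qexp
  qexp_const : ∀ c : ℂ, qexp ⟨_, const_mem c⟩ = HahnSeries.C c
  qexp_G : ∀ (s : LaurentSeries Kbar) (hs : s ∈ P.S), qexp ⟨G s, G_mem s hs⟩ = HolBase.Φ M s

namespace GenBase

variable {M : ℕ} [NeZero M] {Γ : Subgroup SL(2, ℤ)} {P : GenField} (B : GenBase M Γ P)

/-- constant functions as elements of `Hol` -/
def constH (c : ℂ) : B.Hol := ⟨_, B.const_mem c⟩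

/-- the avatar of a generator as an element of `Hol` -/
def GH {s : LaurentSeries Kbar} (hs : s ∈ P.S) : B.Hol := ⟨B.G s, B.G_mem s hs⟩

/-- the `j`-function as an element of `Hol` -/
def JH : B.Hol := B.GH P.hj

/-- precomposition with `g ∈ SL(2,ℤ)` as a ring endomorphism of `Hol` -/
def compH (g : SL(2, ℤ)) : B.Hol →+* B.Hol where
  toFun h := ⟨compSL g h.1, B.comp_mem g h.1 h.2⟩
  map_one' := rfl
  map_mul' _ _ := rfl
  map_zero' := rfl
  map_add' _ _ := rfl

@[simp] theorem compH_apply (g : SL(2, ℤ)) (h : B.Hol) (τ : ℍ) :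
    (B.compH g h : ℍ → ℂ) τ = (h : ℍ → ℂ) (g • τ) := rfl

theorem compH_one (h : B.Hol) : B.compH 1 h = h := by
  apply Subtype.ext; funext τ; simp

theorem compH_mul (g g' : SL(2, ℤ)) (h : B.Hol) :
    B.compH (g * g') h = B.compH g' (B.compH g h) := by
  apply Subtype.ext; funext τ; simp [mul_smul]

theorem compH_injective (g : SL(2, ℤ)) : Function.Injective (B.compH g) := by
  intro h h' hh
  have := congrArg (B.compH g⁻¹) hh
  rwa [← compH_mul, ← compH_mul, mul_inv_cancel, compH_one, compH_one] at this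

theorem compH_constH (g : SL(2, ℤ)) (c : ℂ) : B.compH g (B.constH c) = B.constH c := rfl

theorem compH_JH (g : SL(2, ℤ)) : B.compH g B.JH = B.JH := by
  apply Subtype.ext; funext τ; exact B.G_j_inv g τ

theorem compH_GH_of_mem {s : LaurentSeries Kbar} (hs : s ∈ P.S) {g : SL(2, ℤ)}
    (hg : g ∈ Γ) : B.compH g (B.GH hs) = B.GH hs := by
  apply Subtype.ext; funext τ; exact B.G_inv s hs g hg τ

include B in
/-- `-1 ∈ Γ` (it acts trivially on `ℍ`). -/
theorem neg_one_mem : (-1 : SL(2, ℤ)) ∈ Γ := by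
  apply B.G_distinct
  intro s _ τ
  rw [ModularGroup.SL_neg_smul, one_smul]

theorem qexp_GH {s : LaurentSeries Kbar} (hs : s ∈ P.S) :
    B.qexp (B.GH hs) = HolBase.Φ M s := B.qexp_G s hs

theorem Φ_mem_range {r : LaurentSeries Kbar} (hr : r ∈ P.RG) :
    HolBase.Φ M r ∈ B.qexp.range := by
  induction hr using Algebra.adjoin_induction with
  | mem x hx => exact ⟨B.GH hx, B.qexp_GH hx⟩
  | algebraMap c =>
      exact ⟨B.constH (ιK c), by rw [HolBase.Φ_algebraMap]; exact B.qexp_const _⟩
  | add _ _ _ _ hx hy => rw [map_add]; exact add_mem hx hy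
  | mul _ _ _ _ hx hy => rw [map_mul]; exact mul_mem hx hy

/-- `Hol ≃ range qexp`. -/
def qexpEquiv : B.Hol ≃+* B.qexp.range :=
  RingEquiv.ofBijective B.qexp.rangeRestrict
    ⟨fun x y h => B.qexp_injective (congrArg Subtype.val h), B.qexp.rangeRestrict_surjective⟩

/-- The bridge `e : ℚ̄[S] →+* Hol`. -/
def bridge : P.RG →+* B.Hol :=
  (B.qexpEquiv.symm : B.qexp.range →+* B.Hol).comp
    (((HolBase.Φ M).comp P.RG.val.toRingHom).codRestrict B.qexp.range
      fun r => B.Φ_mem_range r.2)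

theorem qexp_bridge (r : P.RG) : B.qexp (B.bridge r) = HolBase.Φ M (r : LaurentSeries Kbar) := by
  have h := B.qexpEquiv.apply_symm_apply
    ((((HolBase.Φ M).comp P.RG.val.toRingHom).codRestrict B.qexp.range
      fun r => B.Φ_mem_range r.2) r)
  exact congrArg Subtype.val h

theorem bridge_injective : Function.Injective B.bridge := by
  intro r r' h
  apply Subtype.ext
  apply HolBase.Φ_injective (N := M)
  rw [← qexp_bridge, ← qexp_bridge, h]

theorem bridge_algebraMap (c : Kbar) : B.bridge (algebraMap Kbar P.RG c) = B.constH (ιK c) := by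
  apply B.qexp_injective
  rw [qexp_bridge]
  show HolBase.Φ M (algebraMap Kbar (LaurentSeries Kbar) c) = _
  rw [HolBase.Φ_algebraMap]
  exact (B.qexp_const _).symm

theorem bridge_genR {s : LaurentSeries Kbar} (hs : s ∈ P.S) :
    B.bridge (P.genR hs) = B.GH hs := by
  apply B.qexp_injective
  rw [qexp_bridge, qexp_GH]
  rfl

theorem bridge_genR_j : B.bridge (P.genR P.hj) = B.JH := B.bridge_genR P.hj

/-- Every `e r` is `Γ`-invariant. -/
theorem compH_bridge_of_mem {g : SL(2, ℤ)} (hg : g ∈ Γ) (r : P.RG) :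
    B.compH g (B.bridge r) = B.bridge r := by
  obtain ⟨r, hr⟩ := r
  induction hr using Algebra.adjoin_induction with
  | mem x hx =>
      have : (⟨x, Algebra.subset_adjoin hx⟩ : P.RG) = P.genR hx := rfl
      rw [this, bridge_genR]
      exact B.compH_GH_of_mem hx hg
  | algebraMap c =>
      have : (⟨algebraMap Kbar (LaurentSeries Kbar) c, Subalgebra.algebraMap_mem _ c⟩ : P.RG)
          = algebraMap Kbar P.RG c := rfl
      rw [this, bridge_algebraMap]
      rfl
  | add x y hx hy ihx ihy =>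
      have : (⟨x + y, add_mem hx hy⟩ : P.RG) = ⟨x, hx⟩ + ⟨y, hy⟩ := rfl
      rw [this, map_add, map_add, ihx, ihy]
  | mul x y hx hy ihx ihy =>
      have : (⟨x * y, mul_mem hx hy⟩ : P.RG) = ⟨x, hx⟩ * ⟨y, hy⟩ := rfl
      rw [this, map_mul, map_mul, ihx, ihy]

/-- The value of `e r` at a point, for `r` with a known avatar: the bridge is determined by
`qexp`.  If `h ∈ Hol` has `qexp h = Φ r` then `e r = h`. -/
theorem bridge_eq_of_qexp {r : P.RG} {h : B.Hol}
    (hh : B.qexp h = HolBase.Φ M (r : LaurentSeries Kbar)) : B.bridge r = h := by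
  apply B.qexp_injective
  rw [qexp_bridge, hh]

end GenBase

end Fermat.Agent.S48.H332
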