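import Fermat.Agent.S48.H332.KumGen
import Fermat.Agent.S24.Deg.H648D5
import Fermat.Agent.S24.Deg.H648JBound

/-!
# Tower A1 / A1-FF, piece DEG-GEN (helper332) — function-level conjugate product, generic `Γ`

GENERIC port of `S24/Deg/H648Conj.lean`: for a subgroup `Γ ≤ SL₂(ℤ)` of finite index and a
function `f` good for `Γ` (`IsGoodFor Γ f`: holomorphic, `Γ`-invariant, all `SL₂(ℤ)`-translates of
at most exponential growth), the polynomial `∏ₓ (Y - f ∘ gₓ⁻¹)` (product over `x ∈ SL₂(ℤ)/Γ`) has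
coefficients in `ℂ[j]`:

`exists_gcharPoly_eval_eq_zero` : `∃ P ∈ ℂ[X][Y]` monic of degree `|SL₂(ℤ)/Γ|` with
`P(j(τ), f(τ)) = 0` for all `τ`.
-/

set_option autoImplicit false
set_option linter.unusedSectionVars false

noncomputable section

open UpperHalfPlane ModularGroup CongruenceSubgroup Polynomial
open scoped MatrixGroups Manifold Modular Real

namespace Fermat.Agent.S48.H332

open Fermat.Agent.S24.H648

variable (Γ : Subgroup SL(2, ℤ))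

/-- The conjugate `f ∘ gₓ⁻¹` of `f` attached to the coset `x = gₓ Γ`. -/
def gconj (f : ℍ → ℂ) (x : SL(2, ℤ) ⧸ Γ) : ℍ → ℂ :=
  fun τ => f ((Quotient.out x)⁻¹ • τ)

variable {Γ}

lemma gconj_mk {f : ℍ → ℂ} (hf : ∀ γ ∈ Γ, ∀ τ : ℍ, f (γ • τ) = f τ) (g : SL(2, ℤ))
    (τ : ℍ) : gconj Γ f (g : SL(2, ℤ) ⧸ Γ) τ = f (g⁻¹ • τ) := by
  obtain ⟨h, hh⟩ := QuotientGroup.mk_out_eq_mul Γ g
  unfold gconj
  rw [hh, mul_inv_rev, mul_smul]
  exact hf _ (inv_mem h.2) _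

lemma gconj_smul {f : ℍ → ℂ} (hf : ∀ γ ∈ Γ, ∀ τ : ℍ, f (γ • τ) = f τ) (γ : SL(2, ℤ))
    (x : SL(2, ℤ) ⧸ Γ) (τ : ℍ) : gconj Γ f x (γ • τ) = gconj Γ f (γ⁻¹ • x) τ := by
  induction x using QuotientGroup.induction_on with
  | H g =>
    rw [gconj_mk hf, MulAction.Quotient.smul_mk, gconj_mk hf, smul_eq_mul, mul_inv_rev, inv_inv,
      mul_smul]

lemma gconj_one_coset {f : ℍ → ℂ} (hf : ∀ γ ∈ Γ, ∀ τ : ℍ, f (γ • τ) = f τ) (τ : ℍ) :
    gconj Γ f ((1 : SL(2, ℤ)) : SL(2, ℤ) ⧸ Γ) τ = f τ := by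
  rw [gconj_mk hf]; simp

lemma gconj_mem_niceRing {f : ℍ → ℂ} (hf : IsGoodFor Γ f) (x : SL(2, ℤ) ⧸ Γ) :
    gconj Γ f x ∈ niceRing :=
  ⟨mdifferentiable_comp_smul hf.1 _, hf.2.2 _⟩

variable (Γ) in
/-- The "characteristic polynomial" `∏ₓ (Y - f ∘ gₓ⁻¹)` evaluated at `τ`. -/
def gcharPolyAt [Fintype (SL(2, ℤ) ⧸ Γ)] (f : ℍ → ℂ) (τ : ℍ) : ℂ[X] :=
  ∏ x : SL(2, ℤ) ⧸ Γ, (X - C (gconj Γ f x τ))

section charPoly

variable [Fintype (SL(2, ℤ) ⧸ Γ)]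

lemma gcharPolyAt_monic (f : ℍ → ℂ) (τ : ℍ) : (gcharPolyAt Γ f τ).Monic :=
  Polynomial.monic_prod_of_monic _ _ fun _ _ => Polynomial.monic_X_sub_C _

lemma gcharPolyAt_natDegree (f : ℍ → ℂ) (τ : ℍ) :
    (gcharPolyAt Γ f τ).natDegree = Fintype.card (SL(2, ℤ) ⧸ Γ) := by
  unfold gcharPolyAt
  rw [Polynomial.natDegree_prod_of_monic _ _ fun _ _ => Polynomial.monic_X_sub_C _]
  simp

lemma gcharPolyAt_smul {f : ℍ → ℂ} (hf : ∀ γ ∈ Γ, ∀ τ : ℍ, f (γ • τ) = f τ)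
    (γ : SL(2, ℤ)) (τ : ℍ) : gcharPolyAt Γ f (γ • τ) = gcharPolyAt Γ f τ := by
  unfold gcharPolyAt
  refine Fintype.prod_equiv (MulAction.toPerm γ⁻¹) _ _ fun x => ?_
  rw [gconj_smul hf]
  rfl

lemma gcharPolyAt_eval_self {f : ℍ → ℂ} (hf : ∀ γ ∈ Γ, ∀ τ : ℍ, f (γ • τ) = f τ)
    (τ : ℍ) : (gcharPolyAt Γ f τ).eval (f τ) = 0 := by
  unfold gcharPolyAt
  rw [Polynomial.eval_prod]
  refine Finset.prod_eq_zero (Finset.mem_univ ((1 : SL(2, ℤ)) : SL(2, ℤ) ⧸ Γ)) ?_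
  rw [gconj_one_coset hf]
  simp

lemma gcharPolyAt_eval_gconj (f : ℍ → ℂ) (x : SL(2, ℤ) ⧸ Γ)
    (τ : ℍ) : (gcharPolyAt Γ f τ).eval (gconj Γ f x τ) = 0 := by
  unfold gcharPolyAt
  rw [Polynomial.eval_prod]
  refine Finset.prod_eq_zero (Finset.mem_univ x) ?_
  simp

lemma coeff_gcharPolyAt_mem_niceRing {f : ℍ → ℂ} (hf : IsGoodFor Γ f) (k : ℕ) :
    (fun τ => (gcharPolyAt Γ f τ).coeff k) ∈ niceRing :=
  coeff_prod_mem_niceRing (gconj Γ f) (gconj_mem_niceRing hf) Finset.univ k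

/-- **Conjugate product, generic `Γ`.**  The conjugate product `∏ₓ (Y - f ∘ gₓ⁻¹)` of a good
function `f` has coefficients in `ℂ[j]`. -/
theorem exists_gcharPoly {f : ℍ → ℂ} (hf : IsGoodFor Γ f) :
    ∃ P : (ℂ[X])[X], P.Monic ∧ P.natDegree = Fintype.card (SL(2, ℤ) ⧸ Γ) ∧
      ∀ τ : ℍ, P.map (Polynomial.evalRingHom (jFun τ)) = gcharPolyAt Γ f τ := by
  classical
  set n := Fintype.card (SL(2, ℤ) ⧸ Γ) with hn
  have key : ∀ k : ℕ, ∃ p : ℂ[X], ∀ τ, (gcharPolyAt Γ f τ).coeff k = p.eval (jFun τ) := by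
    intro k
    have h := coeff_gcharPolyAt_mem_niceRing hf k
    exact exists_polynomial_of_expGrowth _ h.1
      (fun γ τ => by rw [gcharPolyAt_smul hf.2.1]) h.2
  choose p hp using key
  set Q : (ℂ[X])[X] := ∑ i ∈ Finset.range n, C (p i) * X ^ i with hQ
  have hQdeg : Q.degree < n := by
    rw [Polynomial.degree_lt_iff_coeff_zero]
    intro m hm
    rw [hQ, Polynomial.finsetSum_coeff]
    refine Finset.sum_eq_zero fun i hi => ?_
    rw [Polynomial.coeff_C_mul_X_pow, if_neg]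
    have := Finset.mem_range.mp hi
    omega
  refine ⟨X ^ n + Q, Polynomial.monic_X_pow_add hQdeg, ?_, fun τ => ?_⟩
  · rw [Polynomial.natDegree_add_eq_left_of_degree_lt (by rwa [Polynomial.degree_X_pow]),
      Polynomial.natDegree_X_pow]
  · have h1 := (gcharPolyAt_monic (Γ := Γ) f τ).as_sum
    rw [gcharPolyAt_natDegree] at h1
    rw [h1, Polynomial.map_add, Polynomial.map_pow, Polynomial.map_X, hQ, Polynomial.map_sum]
    congr 1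
    refine Finset.sum_congr rfl fun i _ => ?_
    rw [Polynomial.map_mul, Polynomial.map_pow, Polynomial.map_X, Polynomial.map_C,
      Polynomial.coe_evalRingHom, ← hp i τ]

/-- Corollary: every good function for `Γ` is a root of a monic polynomial of degree
`|SL₂(ℤ)/Γ|` over `ℂ[j]`. -/
theorem exists_gcharPoly_eval_eq_zero {f : ℍ → ℂ} (hf : IsGoodFor Γ f) :
    ∃ P : (ℂ[X])[X], P.Monic ∧ P.natDegree = Fintype.card (SL(2, ℤ) ⧸ Γ) ∧
      ∀ τ : ℍ, (P.map (Polynomial.evalRingHom (jFun τ))).eval (f τ) = 0 := by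
  obtain ⟨P, h1, h2, h3⟩ := exists_gcharPoly hf
  exact ⟨P, h1, h2, fun τ => by rw [h3, gcharPolyAt_eval_self hf.2.1]⟩

/-- All conjugates are roots of the same polynomial. -/
theorem exists_gcharPoly_eval_gconj {f : ℍ → ℂ} (hf : IsGoodFor Γ f) :
    ∃ P : (ℂ[X])[X], P.Monic ∧ P.natDegree = Fintype.card (SL(2, ℤ) ⧸ Γ) ∧
      ∀ (x : SL(2, ℤ) ⧸ Γ) (τ : ℍ),
        (P.map (Polynomial.evalRingHom (jFun τ))).eval (gconj Γ f x τ) = 0 := by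
  obtain ⟨P, h1, h2, h3⟩ := exists_gcharPoly hf
  exact ⟨P, h1, h2, fun x τ => by rw [h3, gcharPolyAt_eval_gconj]⟩

end charPoly

end Fermat.Agent.S48.H332
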