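import Fermat.Agent.S48.H332.PkgLocal

/-!
# Tower A1 / A1-FF, piece PKG-GEN (helper332) — the generic analytic core and the package

GENERIC port of `S24/Mod/H997Core.lean`: `GenCore M Γ P` is the complete list of analytic facts
needed (besides the degree bound `[F : ℚ̄(j)] ≤ |SL₂(ℤ)/Γ|`) to produce all the `LocalData` of the
generic modular package `GenPackage Γ P`.
-/

set_option autoImplicit false
set_option linter.style.haveILetI false
set_option linter.unusedVariables false

noncomputable section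

open ModularCurve HahnSeries UpperHalfPlane
open scoped MatrixGroups

namespace Fermat.Agent.S48.H332

open Fermat.Agent.S24 Fermat.Agent.S24.H997

variable {M : ℕ} [NeZero M] {Γ : Subgroup SL(2, ℤ)} {P : GenField}

/-- Local data at a point of `ℍ` lying over `a = j(τ₀)`: an expansion (Taylor expansion at `τ₀`),
rotation data for the stabilising element `ε`, and the order of vanishing of `j - a`. -/
structure GenPointData (B : GenBase M Γ P) (a : ℂ) (ε : SL(2, ℤ)) where
  X : GenExpansion B
  R : GenRotData B X ε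
  order_J : (X.E (B.JH - B.constH a)).order = (R.m : ℤ)

/-- Change of the value `a` along an equality. -/
def GenPointData.castVal {B : GenBase M Γ P} {a a' : ℂ} {ε : SL(2, ℤ)} (h : a = a')
    (Q : GenPointData B a ε) : GenPointData B a' ε where
  X := Q.X
  R := Q.R
  order_J := by rw [← h]; exact Q.order_J

/-- **The generic analytic interface.** -/
structure GenCore (M : ℕ) [NeZero M] (Γ : Subgroup SL(2, ℤ)) (P : GenField)
    extends GenBase M Γ P where
  /-- generic points: `j - a` has a simple zero at some `τ₀` -/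
  generic : ∀ a : ℂ, a ≠ 0 → a ≠ 1728 → GenPointData toGenBase a 1
  /-- the point `i` over `1728`, rotation by `S` -/
  at1728 : GenPointData toGenBase 1728 ModularGroup.S
  /-- the point `ρ` over `0`, rotation by `S * T` -/
  at0 : GenPointData toGenBase 0 (ModularGroup.S * ModularGroup.T)
  /-- the cusp `∞`: `qexp (h ∘ T)` is `qexp h` with `z` replaced by `ζ z` -/
  infζ : ℂ
  inf_hζ : IsPrimitiveRoot infζ M
  inf_shift : ∀ (h : Hol) (n : ℤ),
    (qexp (toGenBase.compH ModularGroup.T h)).coeff n = infζ ^ n * (qexp h).coeff n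
  generic_m : ∀ (a : ℂ) (h0 : a ≠ 0) (h1 : a ≠ 1728), (generic a h0 h1).R.m = 1
  at1728_m : at1728.R.m = 2
  at0_m : at0.R.m = 3

namespace GenBase

variable (B : GenBase M Γ P)

/-- the expansion at `∞` -/
def qexpExpansion : GenExpansion B := ⟨B.qexp, B.qexp_injective, B.qexp_const⟩

theorem qexp_JH_coeff (k : ℤ) :
    (B.qexp B.JH).coeff k
      = if (M : ℤ) ∣ k then ((jq.coeff (k / (M : ℤ)) : ℚ) : ℂ) else 0 := by
  rw [JH, qexp_GH, HolBase.Φ_coeff]
  split_ifs with h
  · rw [jBar, coeffEmb_coeff, ιK_algebraMap]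
  · rfl

theorem qexp_JH_ne_zero : B.qexp B.JH ≠ 0 := by
  apply ne_zero_of_coeff_ne_zero (g := -(M : ℤ))
  rw [qexp_JH_coeff, if_pos (dvd_neg.mpr dvd_rfl)]
  have hN : (M : ℤ) ≠ 0 := by exact_mod_cast NeZero.ne M
  rw [Int.neg_ediv_of_dvd dvd_rfl, Int.ediv_self hN, coeff_jq_neg_one]
  simp

theorem order_qexp_JH : (B.qexp B.JH).order = -(M : ℤ) := by
  have hN : (M : ℤ) ≠ 0 := by exact_mod_cast NeZero.ne M
  have hNpos : (0 : ℤ) < M := by exact_mod_cast Nat.pos_of_ne_zero (NeZero.ne M)
  apply le_antisymm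
  · apply order_le_of_coeff_ne_zero
    rw [qexp_JH_coeff, if_pos (dvd_neg.mpr dvd_rfl)]
    rw [Int.neg_ediv_of_dvd dvd_rfl, Int.ediv_self hN, coeff_jq_neg_one]
    simp
  · by_contra hlt
    replace hlt := lt_of_not_ge hlt
    have h0 := coeff_order_eq_zero.not.mpr B.qexp_JH_ne_zero
    apply h0
    rw [qexp_JH_coeff]
    split_ifs with hdvd
    · obtain ⟨m, hm⟩ := hdvd
      rw [hm, Int.mul_ediv_cancel_left _ hN]
      have : m < -1 := by
        rw [hm] at hlt
        by_contra hge
        replace hge := le_of_not_gt hge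
        have : (M : ℤ) * m ≥ M * (-1) := mul_le_mul_of_nonneg_left hge hNpos.le
        linarith
      rw [coeff_jq_of_lt this]
      simp
    · rfl

end GenBase

/-- Rotation data from a coefficientwise statement `coeff_n (E (h ∘ ε)) = ζ^n coeff_n (E h)`. -/
def GenRotData.ofCoeff (B : GenBase M Γ P) (X : GenExpansion B) (ε : SL(2, ℤ)) (m : ℕ)
    (m_pos : 0 < m) (ζ : ℂ) (hζ : IsPrimitiveRoot ζ m)
    (h : ∀ (f : B.Hol) (n : ℤ), (X.E (B.compH ε f)).coeff n = ζ ^ n * (X.E f).coeff n) :
    GenRotData B X ε where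
  m := m
  m_pos := m_pos
  ζ := ζ
  hζ := hζ
  rot f := by
    have hζ0 : ζ ≠ 0 := hζ.ne_zero m_pos.ne'
    by_cases hf : X.E f = 0
    · have : X.E (B.compH ε f) = 0 := by
        ext n; rw [h, hf]; simp
      rw [hf, this]; exact RotRel.zero
    · have hf' : X.E (B.compH ε f) ≠ 0 := by
        intro h0
        apply hf
        ext n
        have := congrArg (fun s => s.coeff n) h0
        simp only [h, coeff_zero, mul_eq_zero, zpow_ne_zero n hζ0, false_or] at this
        simpa using this
      have hord : (X.E (B.compH ε f)).order = (X.E f).order := by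
        apply le_antisymm
        · apply order_le_of_coeff_ne_zero
          rw [h]
          exact mul_ne_zero (zpow_ne_zero _ hζ0) (coeff_order_eq_zero.not.mpr hf)
        · apply order_le_of_coeff_ne_zero
          have := coeff_order_eq_zero.not.mpr hf'
          rw [h] at this
          exact right_ne_zero_of_mul this
      refine ⟨hord, ?_⟩
      rw [leadingCoeff_eq, leadingCoeff_eq, hord, h]

namespace GenCore

variable (A : GenCore M Γ P)

/-- rotation data at the cusp -/
def infRot : GenRotData A.toGenBase A.toGenBase.qexpExpansion ModularGroup.T :=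
  GenRotData.ofCoeff A.toGenBase A.toGenBase.qexpExpansion ModularGroup.T M
    (Nat.pos_of_ne_zero (NeZero.ne M)) A.infζ A.inf_hζ A.inf_shift

/-- the local data at `∞` -/
def dataInf : LocalData Kbar P.F ℂ (XG Γ) (P.jF)⁻¹ :=
  A.toGenBase.mkLocalData A.toGenBase.qexpExpansion ModularGroup.T A.infRot (P.jF)⁻¹
    (A.qexp A.toGenBase.JH)⁻¹
    (fun g => by rw [map_inv₀, GenBase.sigmaG_jF]; rfl)
    (by
      rw [RotRel.order_inv' A.toGenBase.qexp_JH_ne_zero, A.toGenBase.order_qexp_JH, neg_neg]
      rfl)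

theorem sigmaG_sub {a : Kbar} {ε : SL(2, ℤ)} (Q : GenPointData A.toGenBase (ιK a) ε)
    (g : SL(2, ℤ)) :
    A.toGenBase.sigmaG Q.X g (P.jF - algebraMap Kbar P.F a)
      = Q.X.E (A.toGenBase.JH - A.toGenBase.constH (ιK a)) := by
  rw [map_sub, GenBase.sigmaG_jF, GenBase.sigmaG_algebraMap, map_sub, Q.X.const]

/-- the local data attached to point data over `a` -/
def dataOfPoint {a : Kbar} {ε : SL(2, ℤ)} (Q : GenPointData A.toGenBase (ιK a) ε) :
    LocalData Kbar P.F ℂ (XG Γ) (P.jF - algebraMap Kbar P.F a) :=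
  A.toGenBase.mkLocalData Q.X ε Q.R _ _ (fun g => A.sigmaG_sub Q g) Q.order_J

/-- all the embeddings `σ_x` agree on `ℚ̄(j)` -/
theorem sigmaX_eq_on_adjoin (X : GenExpansion A.toGenBase) (x y : XG Γ) {f : P.F}
    (hf : f ∈ IntermediateField.adjoin Kbar {P.jF}) :
    A.toGenBase.sigmaX X x f = A.toGenBase.sigmaX X y f := by
  induction hf using IntermediateField.adjoin_induction with
  | mem z hz =>
      rw [Set.mem_singleton_iff] at hz
      subst hz
      show A.toGenBase.sigmaG X _ P.jF = A.toGenBase.sigmaG X _ P.jF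
      rw [GenBase.sigmaG_jF, GenBase.sigmaG_jF]
  | algebraMap c =>
      show A.toGenBase.sigmaG X _ _ = A.toGenBase.sigmaG X _ _
      rw [GenBase.sigmaG_algebraMap, GenBase.sigmaG_algebraMap]
  | add z w _ _ hz hw => rw [map_add, map_add, hz, hw]
  | inv z _ hz => rw [map_inv₀, map_inv₀, hz]
  | mul z w _ _ hz hw => rw [map_mul, map_mul, hz, hw]

/-- lower bound for the degree: `|SL₂(ℤ)/Γ| ≤ [F : ℚ̄(j)]`. -/
theorem card_le_finrank (A : GenCore M Γ P)
    [FiniteDimensional ↥(IntermediateField.adjoin Kbar {P.jF}) P.F] :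
    Nat.card (XG Γ) ≤ Module.finrank ↥(IntermediateField.adjoin Kbar {P.jF}) P.F := by
  classical
  set E := IntermediateField.adjoin Kbar {P.jF} with hE
  let X := A.toGenBase.qexpExpansion
  let x0 : XG Γ := ((1 : SL(2, ℤ)) : XG Γ)
  let ψ : ↥E →+* LaurentSeries ℂ := (A.toGenBase.sigmaX X x0).comp (algebraMap ↥E P.F)
  letI : Algebra ↥E (LaurentSeries ℂ) := ψ.toAlgebra
  let a : XG Γ → (P.F →ₐ[↥E] LaurentSeries ℂ) := fun x =>
    { A.toGenBase.sigmaX X x with
      commutes' := fun y => A.sigmaX_eq_on_adjoin X x x0 y.2 }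
  have ha : Function.Injective a := by
    intro x y hxy
    apply A.toGenBase.sigmaX_injective X
    refine RingHom.ext fun f => ?_
    exact congrArg (fun φ : P.F →ₐ[↥E] LaurentSeries ℂ => φ f) hxy
  haveI : Module.Free ↥E P.F := Module.Free.of_divisionRing ↥E P.F
  haveI : Module.Finite ↥E P.F := ‹FiniteDimensional ↥E P.F›
  haveI : Finite (P.F →ₐ[↥E] LaurentSeries ℂ) := Finite.algHom ↥E P.F (LaurentSeries ℂ)
  calc Nat.card (XG Γ) ≤ Nat.card (P.F →ₐ[↥E] LaurentSeries ℂ) :=
        Nat.card_le_card_of_injective a ha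
    _ ≤ Module.finrank ↥E P.F := card_algHom_le_finrank ↥E P.F (LaurentSeries ℂ)

/-- the index of `Γ` is finite as soon as `F / ℚ̄(j)` is finite -/
theorem finite_XG (A : GenCore M Γ P)
    [FiniteDimensional ↥(IntermediateField.adjoin Kbar {P.jF}) P.F] : Finite (XG Γ) := by
  classical
  set E := IntermediateField.adjoin Kbar {P.jF} with hE
  let X := A.toGenBase.qexpExpansion
  let x0 : XG Γ := ((1 : SL(2, ℤ)) : XG Γ)
  let ψ : ↥E →+* LaurentSeries ℂ := (A.toGenBase.sigmaX X x0).comp (algebraMap ↥E P.F)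
  letI : Algebra ↥E (LaurentSeries ℂ) := ψ.toAlgebra
  let a : XG Γ → (P.F →ₐ[↥E] LaurentSeries ℂ) := fun x =>
    { A.toGenBase.sigmaX X x with
      commutes' := fun y => A.sigmaX_eq_on_adjoin X x x0 y.2 }
  have ha : Function.Injective a := by
    intro x y hxy
    apply A.toGenBase.sigmaX_injective X
    refine RingHom.ext fun f => ?_
    exact congrArg (fun φ : P.F →ₐ[↥E] LaurentSeries ℂ => φ f) hxy
  haveI : Module.Free ↥E P.F := Module.Free.of_divisionRing ↥E P.F
  haveI : Module.Finite ↥E P.F := ‹FiniteDimensional ↥E P.F›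
  haveI : Finite (P.F →ₐ[↥E] LaurentSeries ℂ) := Finite.algHom ↥E P.F (LaurentSeries ℂ)
  exact Finite.of_injective a ha

/-- the local data over a finite point `a : ℚ̄` -/
def dataFin (a : Kbar) : LocalData Kbar P.F ℂ (XG Γ) (P.jF - algebraMap Kbar P.F a) :=
  letI := Classical.propDecidable
  if h0 : a = 0 then
    A.dataOfPoint (a := a) (ε := ModularGroup.S * ModularGroup.T)
      (A.at0.castVal (by rw [h0, map_zero]))
  else if h1 : a = 1728 then
    A.dataOfPoint (a := a) (ε := ModularGroup.S)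
      (A.at1728.castVal (by rw [h1]; exact (map_ofNat ιK 1728).symm))
  else
    A.dataOfPoint (a := a) (ε := 1)
      (A.generic (ιK a)
        (fun h => h0 (ιK_injective (by rw [h, map_zero])))
        (fun h => h1 (ιK_injective (by rw [h]; exact (map_ofNat ιK 1728).symm))))

theorem dataFin_perm_generic (a : Kbar) (h0 : a ≠ 0) (h1 : a ≠ 1728) :
    (A.dataFin a).perm = 1 := by
  unfold dataFin
  rw [dif_neg h0, dif_neg h1]
  show permG Γ 1⁻¹ = 1
  rw [inv_one, permG_one]

theorem dataFin_zero_perm :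
    (A.dataFin 0).perm = permG Γ (ModularGroup.S * ModularGroup.T)⁻¹ := by
  unfold dataFin
  rw [dif_pos rfl]
  rfl

theorem dataFin_1728_perm :
    (A.dataFin 1728).perm = permG Γ ModularGroup.S⁻¹ := by
  have h0 : (1728 : Kbar) ≠ 0 := by norm_num
  unfold dataFin
  rw [dif_neg h0, dif_pos rfl]
  rfl

theorem dataInf_perm : A.dataInf.perm = permG Γ ModularGroup.T⁻¹ := rfl

theorem dataFin_zero_numOrbits :
    numOrbits (A.dataFin 0).perm = numOrbits (permG Γ (ModularGroup.S * ModularGroup.T)) := by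
  rw [dataFin_zero_perm, permG_inv, numOrbits_inv]

theorem dataFin_1728_numOrbits :
    numOrbits (A.dataFin 1728).perm = numOrbits (permG Γ ModularGroup.S) := by
  rw [dataFin_1728_perm, permG_inv, numOrbits_inv]

theorem dataInf_numOrbits :
    numOrbits A.dataInf.perm = numOrbits (permG Γ ModularGroup.T) := by
  rw [dataInf_perm, permG_inv, numOrbits_inv]

end GenCore

/-- **The generic modular package**: everything the algebraic side (`S24/Alg`, generic in the
function field) needs to know about `F = ℚ̄(S)`, a field of modular functions for `Γ`. -/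
structure GenPackage (M : ℕ) (Γ : Subgroup SL(2, ℤ)) (P : GenField) where
  finiteDimensional :
    FiniteDimensional ↥(IntermediateField.adjoin Kbar {P.jF}) P.F
  finrank_eq :
    Module.finrank ↥(IntermediateField.adjoin Kbar {P.jF}) P.F = Nat.card (XG Γ)
  dataFin : ∀ a : Kbar, LocalData Kbar P.F ℂ (XG Γ) (P.jF - algebraMap Kbar P.F a)
  dataInf : LocalData Kbar P.F ℂ (XG Γ) (P.jF)⁻¹
  perm_generic : ∀ a : Kbar, a ≠ 0 → a ≠ 1728 → (dataFin a).perm = 1
  perm_zero : (dataFin 0).perm = permG Γ (ModularGroup.S * ModularGroup.T)⁻¹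
  perm_1728 : (dataFin 1728).perm = permG Γ ModularGroup.S⁻¹
  perm_inf : dataInf.perm = permG Γ ModularGroup.T⁻¹
  m_generic : ∀ a : Kbar, a ≠ 0 → a ≠ 1728 → (dataFin a).m = 1
  m_zero : (dataFin 0).m = 3
  m_1728 : (dataFin 1728).m = 2
  m_inf : dataInf.m = M

namespace GenPackage

theorem orbits_zero (Q : GenPackage M Γ P) :
    numOrbits (Q.dataFin 0).perm = numOrbits (permG Γ (ModularGroup.S * ModularGroup.T)) := by
  rw [Q.perm_zero, permG_inv, numOrbits_inv]

theorem orbits_1728 (Q : GenPackage M Γ P) :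
    numOrbits (Q.dataFin 1728).perm = numOrbits (permG Γ ModularGroup.S) := by
  rw [Q.perm_1728, permG_inv, numOrbits_inv]

theorem orbits_inf (Q : GenPackage M Γ P) :
    numOrbits Q.dataInf.perm = numOrbits (permG Γ ModularGroup.T) := by
  rw [Q.perm_inf, permG_inv, numOrbits_inv]

end GenPackage

namespace GenCore

theorem dataFin_m_generic (A : GenCore M Γ P) (a : Kbar) (h0 : a ≠ 0) (h1 : a ≠ 1728) :
    (A.dataFin a).m = 1 := by
  unfold dataFin
  rw [dif_neg h0, dif_neg h1]
  exact A.generic_m _ _ _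

theorem dataFin_m_zero (A : GenCore M Γ P) : (A.dataFin 0).m = 3 := by
  unfold dataFin
  rw [dif_pos rfl]
  exact A.at0_m

theorem dataFin_m_1728 (A : GenCore M Γ P) : (A.dataFin 1728).m = 2 := by
  have h0 : (1728 : Kbar) ≠ 0 := by norm_num
  unfold dataFin
  rw [dif_neg h0, dif_pos rfl]
  exact A.at1728_m

/-- **Assembly.**  The generic modular package from the analytic core and the degree bound. -/
def toPackage (A : GenCore M Γ P)
    (hfd : FiniteDimensional ↥(IntermediateField.adjoin Kbar {P.jF}) P.F)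
    (hle : Module.finrank ↥(IntermediateField.adjoin Kbar {P.jF}) P.F ≤ Nat.card (XG Γ)) :
    GenPackage M Γ P where
  finiteDimensional := hfd
  finrank_eq := le_antisymm hle A.card_le_finrank
  dataFin := A.dataFin
  dataInf := A.dataInf
  perm_generic := A.dataFin_perm_generic
  perm_zero := A.dataFin_zero_perm
  perm_1728 := A.dataFin_1728_perm
  perm_inf := A.dataInf_perm
  m_generic := A.dataFin_m_generic
  m_zero := A.dataFin_m_zero
  m_1728 := A.dataFin_m_1728
  m_inf := rfl

end GenCore

end Fermat.Agent.S48.H332
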