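import Fermat.Agent.S24.Deg.H457_Main

/-!
# Tower A1 / A1-FF, piece DEG-GEN (helper332) — the degree bound from relations over `ℂ`, generic

GENERIC port of `S24/Deg/H457_Alg.lean` + `H457_Main.lean`: the generators `j(q^d)`, `d ∣ N`, are
replaced by an arbitrary set `S` of Laurent series containing `j`.

Interface hypothesis `HypG L S n`: every element of the `L`-subalgebra of `L((q))` generated by `S`
is a root of a monic polynomial of degree `n` with coefficients in `L[j]`.

Main result: `finiteDimensional_and_finrank_le_G`.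
-/

set_option autoImplicit false
set_option linter.unusedSectionVars false
set_option linter.unusedVariables false

noncomputable section

open Polynomial ModularCurve IntermediateField

namespace Fermat.Agent.S48.H332

open Fermat.Agent.S24 Fermat.Agent.S24.Deg457

section General

variable (K : Type*) [Field K] [Algebra ℚ K]

/-- The generic interface hypothesis. -/
def HypG (S : Set (LaurentSeries K)) (n : ℕ) : Prop :=
  ∀ b ∈ Algebra.adjoin K S, ∃ P : K[X][X], P.Monic ∧ P.natDegree = n ∧
    P.eval₂ (evJ (JK K)) b = 0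

variable {K}

theorem aeval_JK_mem {A : Subalgebra K (LaurentSeries K)} (hJ : JK K ∈ A) (t : K[X]) :
    aeval (JK K) t ∈ A := by
  rw [aeval_def, eval₂_eq_sum_range]
  refine Subalgebra.sum_mem _ fun i _ => ?_
  exact Subalgebra.mul_mem _ (Subalgebra.algebraMap_mem _ _) (Subalgebra.pow_mem _ hJ _)

theorem eval₂_mem_G {A : Subalgebra K (LaurentSeries K)} (hJ : JK K ∈ A) (Q : K[X][X])
    {s : LaurentSeries K} (hs : s ∈ A) : Q.eval₂ (evJ (JK K)) s ∈ A := by
  rw [eval₂_eq_sum_range]
  refine Subalgebra.sum_mem _ fun i _ => ?_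
  exact Subalgebra.mul_mem _ (aeval_JK_mem hJ _) (Subalgebra.pow_mem _ hs _)

/-- a nonzero algebraic element of `A` has an "inverse up to a polynomial in `j`" in `A`. -/
theorem exists_mul_eq_aeval_G {A : Subalgebra K (LaurentSeries K)} (hJ : JK K ∈ A) {n : ℕ}
    {s : LaurentSeries K} (hs : s ∈ A) (hs0 : s ≠ 0)
    (ha : AlgDeg K n s) : ∃ g ∈ A, ∃ t : K[X], t ≠ 0 ∧ s * g = aeval (JK K) t := by
  obtain ⟨Q, hQ0, -, hQ⟩ := ha
  have key : ∀ m : ℕ, ∀ Q : K[X][X], Q.natDegree ≤ m → Q ≠ 0 → Q.eval₂ (evJ (JK K)) s = 0 →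
      ∃ Q₁ : K[X][X], Q₁.coeff 0 ≠ 0 ∧ Q₁.eval₂ (evJ (JK K)) s = 0 := by
    intro m
    induction m with
    | zero =>
      intro Q hdeg hQ0 hQ
      refine ⟨Q, ?_, hQ⟩
      intro h0
      apply hQ0
      rw [eq_C_of_natDegree_le_zero hdeg, h0, map_zero]
    | succ m ih =>
      intro Q hdeg hQ0 hQ
      by_cases h0 : Q.coeff 0 = 0
      · have hdiv : Q = divX Q * X := by
          conv_lhs => rw [← divX_mul_X_add Q, h0, map_zero, add_zero]
        have hd0 : divX Q ≠ 0 := by
          intro h; apply hQ0; rw [hdiv, h, zero_mul]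
        have hev : (divX Q).eval₂ (evJ (JK K)) s = 0 := by
          rw [hdiv, eval₂_mul, eval₂_X] at hQ
          rcases mul_eq_zero.mp hQ with h | h
          · exact h
          · exact absurd h hs0
        refine ih (divX Q) ?_ hd0 hev
        rw [natDegree_divX_eq_natDegree_tsub_one]
        omega
      · exact ⟨Q, h0, hQ⟩
  obtain ⟨Q₁, h0, hQ₁⟩ := key Q.natDegree Q le_rfl hQ0 hQ
  refine ⟨-(divX Q₁).eval₂ (evJ (JK K)) s, Subalgebra.neg_mem _ (eval₂_mem_G hJ _ hs),
    Q₁.coeff 0, h0, ?_⟩
  have hsplit : Q₁.eval₂ (evJ (JK K)) s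
      = (divX Q₁).eval₂ (evJ (JK K)) s * s + aeval (JK K) (Q₁.coeff 0) := by
    conv_lhs => rw [← divX_mul_X_add Q₁]
    rw [eval₂_add, eval₂_mul, eval₂_X, eval₂_C, evJ_apply]
  rw [hQ₁] at hsplit
  linear_combination hsplit

end General

section Descent

variable {K L : Type*} [Field K] [Algebra ℚ K] [Field L] [Algebra ℚ L]

theorem coeffMap_mem_adjoin (ι : K →+* L) {S : Set (LaurentSeries K)} {a : LaurentSeries K}
    (ha : a ∈ Algebra.adjoin K S) :
    coeffMap ι a ∈ Algebra.adjoin L (⇑(coeffMap ι) '' S) := by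
  induction ha using Algebra.adjoin_induction with
  | mem x hx => exact Algebra.subset_adjoin ⟨x, hx, rfl⟩
  | algebraMap r =>
    rw [coeffMap_algebraMap']
    exact Subalgebra.algebraMap_mem _ _
  | add x y _ _ hx hy =>
    rw [map_add]; exact Subalgebra.add_mem _ hx hy
  | mul x y _ _ hx hy =>
    rw [map_mul]; exact Subalgebra.mul_mem _ hx hy

/-- Lemma B: elements of `K[S]` are algebraic of degree `≤ n` over `K[j]`, given the hypothesis
over the bigger field `L`. -/
theorem algDeg_of_mem_adjoin (ι : K →+* L) {S : Set (LaurentSeries K)} {n : ℕ}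
    (hyp : HypG L (⇑(coeffMap ι) '' S) n) {a : LaurentSeries K}
    (ha : a ∈ Algebra.adjoin K S) : AlgDeg K n a := by
  obtain ⟨P, hP, hn, h0⟩ := hyp _ (coeffMap_mem_adjoin ι ha)
  rw [← coeffMap_JK ι] at h0
  exact exists_relation_of_coeffMap_monic ι (JK K) a n P hP hn h0

/-- Lemma H: every element of the field `K(S)` is algebraic of degree `≤ n` over `K[j]`. -/
theorem algDeg_of_mem_field_G (ι : K →+* L) {S : Set (LaurentSeries K)} (hJ : JK K ∈ S) {n : ℕ}
    (hyp : HypG L (⇑(coeffMap ι) '' S) n) {x : LaurentSeries K}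
    (hx : x ∈ IntermediateField.adjoin K S) : AlgDeg K n x := by
  rw [IntermediateField.mem_adjoin_iff_div] at hx
  obtain ⟨r, hr, s, hs, rfl⟩ := hx
  have hJ' : JK K ∈ Algebra.adjoin K S := Algebra.subset_adjoin hJ
  by_cases hs0 : s = 0
  · subst hs0
    rw [div_zero]
    exact algDeg_of_mem_adjoin ι hyp (Subalgebra.zero_mem _)
  · obtain ⟨g, hg, t, ht, hst⟩ :=
      exists_mul_eq_aeval_G hJ' hs hs0 (algDeg_of_mem_adjoin ι hyp hs)
    refine AlgDeg.of_mul_eq (a := r * g) ht ?_
      (algDeg_of_mem_adjoin ι hyp (Subalgebra.mul_mem _ hr hg))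
    rw [← hst]
    field_simp

end Descent

section Final

variable {K L : Type*} [Field K] [Algebra ℚ K] [CharZero K] [Field L] [Algebra ℚ L]

/-- **Degree bound, generic.**  `F = K(S) ⊆ K((q))`, `j ∈ S`; from the interface hypothesis over
a bigger field `L`: `[F : K(j)] ≤ n`. -/
theorem finiteDimensional_and_finrank_le_G (ι : K →+* L) {S : Set (LaurentSeries K)}
    (hJ : JK K ∈ S) (F : IntermediateField K (LaurentSeries K))
    (hF : F = IntermediateField.adjoin K S) (jF : F) (hjF : (jF : LaurentSeries K) = JK K)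
    (n : ℕ) (hyp : HypG L (⇑(coeffMap ι) '' S) n) :
    FiniteDimensional ↥(IntermediateField.adjoin K {jF}) F ∧
      Module.finrank ↥(IntermediateField.adjoin K {jF}) F ≤ n := by
  refine finiteDimensional_and_finrank_le_of_forall_natDegree_minpoly_le n fun x => ?_
  have hx : (x : LaurentSeries K) ∈ IntermediateField.adjoin K S := by
    rw [← hF]; exact x.2
  obtain ⟨Q, hQ0, hQn, hQ⟩ := algDeg_of_mem_field_G ι hJ hyp hx
  have hinc : Function.Injective (algebraMap F (LaurentSeries K)) :=
    (algebraMap F (LaurentSeries K)).injective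
  refine isIntegral_and_natDegree_le_of_relation (K := K)
    (AdjoinSimple.gen K jF) ?_ x Q hQ0 n hQn ?_
  · intro t ht h0
    apply aeval_JK_ne_zero K ht
    have h1 := congrArg (algebraMap ↥(IntermediateField.adjoin K {jF}) F) h0
    rw [← aeval_algebraMap_apply, map_zero, AdjoinSimple.algebraMap_gen] at h1
    have h2 := congrArg (algebraMap F (LaurentSeries K)) h1
    rw [← aeval_algebraMap_apply, map_zero] at h2
    rw [← hjF]
    exact h2
  · apply hinc
    rw [map_zero, Polynomial.hom_eval₂, AdjoinSimple.algebraMap_gen]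
    have hcomp : (algebraMap F (LaurentSeries K)).comp
        ((aeval jF : K[X] →ₐ[K] F).toRingHom) = evJ (JK K) := by
      refine Polynomial.ringHom_ext ?_ ?_
      · intro c
        simp [evJ, ← IsScalarTower.algebraMap_apply]
      · simp [evJ]
        exact hjF
    rw [hcomp]
    exact hQ

end Final

end Fermat.Agent.S48.H332
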