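import Fermat.Agent.S48.H332.PkgMain
import Fermat.Agent.S48.H332.PkgConj
import Fermat.Agent.S48.H332.PkgDegAlg

/-!
# Tower A1 / A1-FF, piece DEG-GEN (helper332) — the degree of `ℚ̄(S)` over `ℚ̄(j)`, unconditionally

For analytic input `D : GenData M Γ P` with `Γ` of finite index:

* `GenData.hypG`          : every element of `ℂ[S]` is a root of a monic polynomial of degree
                            `|SL₂(ℤ)/Γ|` over `ℂ[j]` (conjugate product, inside the ring `holN M`);
* `GenData.degree_fields` : `F/ℚ̄(j)` is finite of degree `≤ |SL₂(ℤ)/Γ|`;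
* `GenData.finrank_eq`    : `[F : ℚ̄(j)] = |SL₂(ℤ)/Γ|`;
* `GenData.pkg`           : the generic modular package `GenPackage M Γ P`, UNCONDITIONALLY.
-/

set_option autoImplicit false
set_option linter.style.haveILetI false
set_option linter.unusedVariables false
set_option linter.unusedSectionVars false

noncomputable section

open ModularCurve HahnSeries UpperHalfPlane Polynomial
open scoped MatrixGroups Manifold Real

namespace Fermat.Agent.S48.H332

open Fermat.Agent.S24 Fermat.Agent.S24.H997 Fermat.Agent.S24.Deg457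
open Fermat.Agent.S24.H624 Fermat.Agent.S20.L1

namespace GenData

variable {M : ℕ} [NeZero M] {Γ : Subgroup SL(2, ℤ)} {P : GenField} (D : GenData M Γ P)

/-- the generators over `ℂ` -/
def SC (P : GenField) : Set (LaurentSeries ℂ) := ⇑(coeffMap ιK) '' P.S

theorem JK_mem_SC : JK ℂ ∈ SC P :=
  ⟨jBar, P.hj, coeffMap_JK ιK⟩

theorem jBar_eq_JK : jBar = JK Kbar := rfl

/-- constants as a ring hom `ℂ →+* Hol` -/
def constHom : ℂ →+* D.base.Hol where
  toFun c := D.base.constH c
  map_one' := rfl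
  map_mul' _ _ := rfl
  map_zero' := rfl
  map_add' _ _ := rfl

/-- evaluation at a point as a ring hom `Hol →+* ℂ` -/
def evalHom (τ : ℍ) : D.base.Hol →+* ℂ where
  toFun h := (h : ℍ → ℂ) τ
  map_one' := rfl
  map_mul' _ _ := rfl
  map_zero' := rfl
  map_add' _ _ := rfl

theorem qExpand_algebraMap (c : ℂ) :
    qExpand ℂ M (algebraMap ℂ (LaurentSeries ℂ) c) = HahnSeries.C c := by
  rw [algebraMap_laurentSeries_eq_single, qExpand_single, mul_zero]
  rfl

/-- every element of `ℂ[S]` is the expansion of a `Γ`-invariant element of `holN M` -/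
theorem exists_hol_of_mem_adjoin {b : LaurentSeries ℂ} (hb : b ∈ Algebra.adjoin ℂ (SC P)) :
    ∃ h : D.base.Hol, (∀ γ ∈ Γ, ∀ τ : ℍ, (h : ℍ → ℂ) (γ • τ) = (h : ℍ → ℂ) τ) ∧
      D.base.qexp h = qExpand ℂ M b := by
  induction hb using Algebra.adjoin_induction with
  | mem x hx =>
    obtain ⟨s, hs, rfl⟩ := hx
    exact ⟨D.base.GH hs, fun γ hγ τ => D.G_inv s hs γ hγ τ, D.base.qexp_GH hs⟩
  | algebraMap c =>
    refine ⟨D.base.constH c, fun _ _ _ => rfl, ?_⟩
    rw [qExpand_algebraMap]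
    exact D.base.qexp_const c
  | add x y _ _ hx hy =>
    obtain ⟨f, hf, hfx⟩ := hx
    obtain ⟨g, hg, hgy⟩ := hy
    refine ⟨f + g, fun γ hγ τ => ?_, by rw [map_add, map_add, hfx, hgy]⟩
    show (f : ℍ → ℂ) (γ • τ) + (g : ℍ → ℂ) (γ • τ) = (f : ℍ → ℂ) τ + (g : ℍ → ℂ) τ
    rw [hf γ hγ τ, hg γ hγ τ]
  | mul x y _ _ hx hy =>
    obtain ⟨f, hf, hfx⟩ := hx
    obtain ⟨g, hg, hgy⟩ := hy
    refine ⟨f * g, fun γ hγ τ => ?_, by rw [map_mul, map_mul, hfx, hgy]⟩
    show (f : ℍ → ℂ) (γ • τ) * (g : ℍ → ℂ) (γ • τ) = (f : ℍ → ℂ) τ * (g : ℍ → ℂ) τ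
    rw [hf γ hγ τ, hg γ hγ τ]

theorem qexp_JH : D.base.qexp D.base.JH = qExpand ℂ M (JK ℂ) := by
  rw [GenBase.JH, GenBase.qexp_GH, ← coeffMap_JK ιK]
  rfl

theorem coe_JH : ((D.base.JH : D.base.Hol) : ℍ → ℂ) = jFun := D.G_j

/-- the two ring homs `ℂ[X] → ℂ((z))` agree -/
theorem qexp_comp_eval₂ :
    (D.base.qexp).comp (Polynomial.eval₂RingHom D.constHom D.base.JH)
      = (qExpand ℂ M).comp (evJ (JK ℂ)) := by
  refine Polynomial.ringHom_ext ?_ ?_
  · intro c
    simp only [RingHom.coe_comp, Function.comp_apply, Polynomial.coe_eval₂RingHom,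
      Polynomial.eval₂_C, evJ_apply, Polynomial.aeval_C]
    rw [qExpand_algebraMap]
    exact D.base.qexp_const c
  · simp only [RingHom.coe_comp, Function.comp_apply, Polynomial.coe_eval₂RingHom,
      Polynomial.eval₂_X, evJ_apply, Polynomial.aeval_X]
    exact D.qexp_JH

theorem evalHom_comp_eval₂ (τ : ℍ) :
    (D.evalHom τ).comp (Polynomial.eval₂RingHom D.constHom D.base.JH)
      = Polynomial.evalRingHom (jFun τ) := by
  refine Polynomial.ringHom_ext ?_ ?_
  · intro c
    simp only [RingHom.coe_comp, Function.comp_apply, Polynomial.coe_eval₂RingHom,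
      Polynomial.eval₂_C, Polynomial.coe_evalRingHom, Polynomial.eval_C]
    rfl
  · simp only [RingHom.coe_comp, Function.comp_apply, Polynomial.coe_eval₂RingHom,
      Polynomial.eval₂_X, Polynomial.coe_evalRingHom, Polynomial.eval_X]
    show ((D.base.JH : D.base.Hol) : ℍ → ℂ) τ = jFun τ
    rw [D.coe_JH]

include D in
/-- **The interface hypothesis over `ℂ`**, unconditionally. -/
theorem hypG [Finite (XG Γ)] : HypG ℂ (SC P) (Nat.card (XG Γ)) := by
  intro b hb
  obtain ⟨h, hinv, hq⟩ := D.exists_hol_of_mem_adjoin hb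
  letI : Fintype (SL(2, ℤ) ⧸ Γ) := Fintype.ofFinite _
  have hgood : IsGoodFor Γ (h : ℍ → ℂ) := isGoodFor_of_mem_holN (M := M) h.2 hinv
  obtain ⟨Q, hQm, hQn, hQ⟩ := exists_gcharPoly_eval_eq_zero hgood
  refine ⟨Q, hQm, ?_, ?_⟩
  · rw [hQn, Nat.card_eq_fintype_card]
  · apply qExpand_injective (R := ℂ) M
    rw [map_zero, Polynomial.hom_eval₂, ← D.qexp_comp_eval₂, ← hq, ← Polynomial.hom_eval₂]
    have hz : Q.eval₂ (Polynomial.eval₂RingHom D.constHom D.base.JH) h = 0 := by
      apply Subtype.ext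
      funext τ
      show D.evalHom τ (Q.eval₂ (Polynomial.eval₂RingHom D.constHom D.base.JH) h) = 0
      rw [Polynomial.hom_eval₂, D.evalHom_comp_eval₂, ← Polynomial.eval_map]
      exact hQ τ
    rw [hz, map_zero]

include D in
/-- **The degree bound**: `F/ℚ̄(j)` is finite of degree `≤ |SL₂(ℤ)/Γ|`. -/
theorem degree_fields [Finite (XG Γ)] :
    FiniteDimensional ↥(IntermediateField.adjoin Kbar {P.jF}) P.F ∧
      Module.finrank ↥(IntermediateField.adjoin Kbar {P.jF}) P.F ≤ Nat.card (XG Γ) :=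
  finiteDimensional_and_finrank_le_G ιK (S := P.S) P.hj P.F P.hF P.jF rfl _ D.hypG

include D in
theorem finiteDimensional [Finite (XG Γ)] :
    FiniteDimensional ↥(IntermediateField.adjoin Kbar {P.jF}) P.F :=
  D.degree_fields.1

include D in
/-- **The degree**: `[F : ℚ̄(j)] = |SL₂(ℤ)/Γ|`. -/
theorem finrank_eq [Finite (XG Γ)] :
    Module.finrank ↥(IntermediateField.adjoin Kbar {P.jF}) P.F = Nat.card (XG Γ) :=
  haveI := D.finiteDimensional
  le_antisymm D.degree_fields.2 (GenCore.card_le_finrank D.core)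

/-- **The generic modular package, unconditionally.** -/
def pkg [Finite (XG Γ)] : GenPackage M Γ P :=
  D.package D.degree_fields.1 D.degree_fields.2

end GenData

end Fermat.Agent.S48.H332
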