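import Fermat.Agent.S24.Mod.H997HolBase

/-!
# Tower A1 / A1-FF, piece PKG-GEN (helper332) — generic function fields `ℚ̄(S) ⊆ ℚ̄((q))`

GENERIC port of `S24/Mod/H997Frac.lean`.  A `GenField` is a set `S` of Laurent series over `ℚ̄`
containing `j`, together with a field `F = ℚ̄(S)` (given up to a propositional equality, so that
`F` may be `laurentBaseChange ℚ̄ F₀` for `F₀ = ℚ(S₀)`, see `laurentBaseChange_adjoin`).

* `GenField.RG`     : the `ℚ̄`-subalgebra generated by `S`;
* `GenField.inclRG` : the inclusion `RG → F`;
* `GenField.liftF`  : every injective ring hom `RG →+* L` into a field extends to `F →+* L`.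
-/

set_option autoImplicit false

noncomputable section

open ModularCurve HahnSeries IntermediateField

namespace Fermat.Agent.S48.H332

open Fermat.Agent.S24 Fermat.Agent.S24.H997

/-- The base change to `ℚ̄` of the field generated over `ℚ` by a set `S₀` of rational Laurent
series is generated over `ℚ̄` by the image of `S₀`. -/
theorem laurentBaseChange_adjoin (S₀ : Set (LaurentSeries ℚ)) :
    laurentBaseChange Kbar (IntermediateField.adjoin ℚ S₀)
      = IntermediateField.adjoin Kbar (⇑(coeffEmb Kbar) '' S₀) := by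
  apply le_antisymm
  · rw [laurentBaseChange, IntermediateField.adjoin_le_iff]
    rintro _ ⟨x, hx, rfl⟩
    have hx' : x ∈ IntermediateField.adjoin ℚ S₀ := hx
    induction hx' using IntermediateField.adjoin_induction with
    | mem y hy => exact IntermediateField.subset_adjoin Kbar _ ⟨y, hy, rfl⟩
    | algebraMap c =>
        have h : coeffEmb Kbar (algebraMap ℚ (LaurentSeries ℚ) c)
            = algebraMap Kbar (LaurentSeries Kbar) (algebraMap ℚ Kbar c) := by
          rw [algebraMap_apply_eq_single, algebraMap_laurentSeries_eq_single, coeffEmb,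
            coeffMap_single]
        show coeffEmb Kbar (algebraMap ℚ (LaurentSeries ℚ) c) ∈ _
        rw [h]
        exact IntermediateField.algebraMap_mem _ _
    | add y z _ _ hy hz =>
        show coeffEmb Kbar (y + z) ∈ _
        rw [map_add]
        exact add_mem (hy (by assumption)) (hz (by assumption))
    | inv y _ hy =>
        show coeffEmb Kbar (y⁻¹) ∈ _
        rw [map_inv₀]
        exact inv_mem (hy (by assumption))
    | mul y z _ _ hy hz =>
        show coeffEmb Kbar (y * z) ∈ _
        rw [map_mul]
        exact mul_mem (hy (by assumption)) (hz (by assumption))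
  · rw [laurentBaseChange]
    exact IntermediateField.adjoin.mono _ _ _
      (Set.image_mono (IntermediateField.subset_adjoin ℚ _))

/-- The series `j ∈ ℚ̄((q))`. -/
def jBar : LaurentSeries Kbar := coeffEmb Kbar jq

/-- A field `F = ℚ̄(S) ⊆ ℚ̄((q))` generated by a set `S` of Laurent series containing `j`. -/
structure GenField where
  /-- the generators -/
  S : Set (LaurentSeries Kbar)
  /-- the field -/
  F : IntermediateField Kbar (LaurentSeries Kbar)
  hF : F = IntermediateField.adjoin Kbar S
  hj : jBar ∈ S

/-- The generic field attached to a set `S₀` of RATIONAL series containing `jq`: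
`F = laurentBaseChange ℚ̄ (ℚ(S₀))`. -/
def GenField.ofRat (S₀ : Set (LaurentSeries ℚ)) (hj : jq ∈ S₀) : GenField where
  S := ⇑(coeffEmb Kbar) '' S₀
  F := laurentBaseChange Kbar (IntermediateField.adjoin ℚ S₀)
  hF := laurentBaseChange_adjoin S₀
  hj := ⟨jq, hj, rfl⟩

namespace GenField

variable (P : GenField)

/-- The polynomial ring `ℚ̄[S] ⊆ ℚ̄((q))`. -/
def RG : Subalgebra Kbar (LaurentSeries Kbar) := Algebra.adjoin Kbar P.S

theorem subset_F : P.S ⊆ (P.F : Set (LaurentSeries Kbar)) := by
  rw [P.hF]
  exact IntermediateField.subset_adjoin Kbar P.S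

theorem RG_le : P.RG ≤ P.F.toSubalgebra := by
  rw [P.hF]
  exact IntermediateField.algebra_adjoin_le_adjoin Kbar P.S

/-- The inclusion `ℚ̄[S] → F`. -/
def inclRG : P.RG →ₐ[Kbar] P.F := Subalgebra.inclusion P.RG_le

@[simp] theorem coe_inclRG (r : P.RG) : ((P.inclRG r : P.F) : LaurentSeries Kbar) = r := rfl

theorem inclRG_injective : Function.Injective P.inclRG :=
  Subalgebra.inclusion_injective P.RG_le

theorem exists_div_inclRG (f : P.F) :
    ∃ r t : P.RG, t ≠ 0 ∧ f = P.inclRG r / P.inclRG t := by
  have hf : (f : LaurentSeries Kbar) ∈ IntermediateField.adjoin Kbar P.S := by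
    rw [← P.hF]; exact f.2
  obtain ⟨r, hr, s, hs, h⟩ := IntermediateField.mem_adjoin_iff_div.mp hf
  by_cases hs0 : s = 0
  · refine ⟨0, 1, one_ne_zero, ?_⟩
    apply Subtype.ext
    rw [h, hs0, div_zero]
    simp
  · refine ⟨⟨r, hr⟩, ⟨s, hs⟩, fun h0 => hs0 (congrArg Subtype.val h0), ?_⟩
    apply Subtype.ext
    rw [h]
    simp

/-- A generator as an element of `ℚ̄[S]`. -/
def genR {s : LaurentSeries Kbar} (hs : s ∈ P.S) : P.RG := ⟨s, Algebra.subset_adjoin hs⟩

/-- A generator as an element of `F`. -/
def genF {s : LaurentSeries Kbar} (hs : s ∈ P.S) : P.F := ⟨s, P.subset_F hs⟩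

@[simp] theorem inclRG_genR {s : LaurentSeries Kbar} (hs : s ∈ P.S) :
    P.inclRG (P.genR hs) = P.genF hs := rfl

/-- The `j`-function as an element of `F`. -/
def jF : P.F := P.genF P.hj

@[simp] theorem coe_jF : ((P.jF : P.F) : LaurentSeries Kbar) = jBar := rfl

theorem inclRG_genR_j : P.inclRG (P.genR P.hj) = P.jF := rfl

section Lift

variable {P}
variable {L : Type*} [Field L]

/-- Extension of an injective ring hom `ℚ̄[S] →+* L` to the fraction field `F`. -/
def liftF (s : P.RG →+* L) (hs : Function.Injective s) : P.F →+* L :=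
  letI : Algebra P.RG P.F := P.inclRG.toRingHom.toAlgebra
  haveI : FaithfulSMul P.RG P.F :=
    (faithfulSMul_iff_algebraMap_injective _ _).mpr P.inclRG_injective
  haveI : IsFractionRing P.RG P.F :=
    IsFractionRing.of_field _ _ fun z => by
      obtain ⟨r, t, -, h⟩ := P.exists_div_inclRG z
      exact ⟨r, t, h⟩
  IsFractionRing.lift hs

theorem liftF_inclRG (s : P.RG →+* L) (hs : Function.Injective s) (r : P.RG) :
    liftF s hs (P.inclRG r) = s r := by
  let _ : Algebra P.RG P.F := P.inclRG.toRingHom.toAlgebra
  have : FaithfulSMul P.RG P.F :=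
    (faithfulSMul_iff_algebraMap_injective _ _).mpr P.inclRG_injective
  have : IsFractionRing P.RG P.F :=
    IsFractionRing.of_field _ _ fun z => by
      obtain ⟨r, t, -, h⟩ := P.exists_div_inclRG z
      exact ⟨r, t, h⟩
  exact IsFractionRing.lift_algebraMap hs r

theorem liftF_div (s : P.RG →+* L) (hs : Function.Injective s) (r t : P.RG) :
    liftF s hs (P.inclRG r / P.inclRG t) = s r / s t := by
  rw [map_div₀, liftF_inclRG, liftF_inclRG]

theorem liftF_algebraMap (s : P.RG →+* L) (hs : Function.Injective s) (c : Kbar) :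
    liftF s hs (algebraMap Kbar P.F c) = s (algebraMap Kbar P.RG c) := by
  rw [← liftF_inclRG s hs]
  congr 1

end Lift

end GenField

end Fermat.Agent.S48.H332
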