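import Fermat.Agent.S48.H332.PkgBridge

/-!
# Tower A1 / A1-FF, piece PKG-GEN (helper332) — `LocalData` from an expansion with rotation data

GENERIC port of `S24/Mod/H997Local.lean` (the relation `RotRel` is reused from there).
The index set of the embeddings is the coset space `SL(2,ℤ) ⧸ Γ`.
-/

set_option autoImplicit false

noncomputable section

open ModularCurve HahnSeries UpperHalfPlane
open scoped MatrixGroups

namespace Fermat.Agent.S48.H332

open Fermat.Agent.S24 Fermat.Agent.S24.H997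

/-- The coset space `SL₂(ℤ) / Γ`. -/
abbrev XG (Γ : Subgroup SL(2, ℤ)) : Type := SL(2, ℤ) ⧸ Γ

/-- The permutation of `SL₂(ℤ) / Γ` induced by left multiplication by `g`. -/
def permG (Γ : Subgroup SL(2, ℤ)) (g : SL(2, ℤ)) : Equiv.Perm (XG Γ) := MulAction.toPerm g

theorem permG_inv (Γ : Subgroup SL(2, ℤ)) (g : SL(2, ℤ)) : permG Γ g⁻¹ = (permG Γ g)⁻¹ := by
  ext x
  simp [permG]

theorem permG_one (Γ : Subgroup SL(2, ℤ)) : permG Γ 1 = 1 := by
  ext x
  simp [permG]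

theorem permG_mk (Γ : Subgroup SL(2, ℤ)) (g h : SL(2, ℤ)) :
    permG Γ g (h : XG Γ) = ((g * h : SL(2, ℤ)) : XG Γ) := rfl

variable {M : ℕ} [NeZero M] {Γ : Subgroup SL(2, ℤ)} {P : GenField}

/-- An abstract injective expansion ring hom on `Hol`. -/
structure GenExpansion (B : GenBase M Γ P) where
  E : B.Hol →+* LaurentSeries ℂ
  inj : Function.Injective E
  const : ∀ c : ℂ, E (B.constH c) = HahnSeries.C c

/-- Rotation data for an expansion: precomposition with `ε` rotates the local coordinate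
by the primitive `m`-th root of unity `ζ` (to first order). -/
structure GenRotData (B : GenBase M Γ P) (X : GenExpansion B) (ε : SL(2, ℤ)) where
  m : ℕ
  m_pos : 0 < m
  ζ : ℂ
  hζ : IsPrimitiveRoot ζ m
  rot : ∀ h : B.Hol, RotRel ζ (X.E h) (X.E (B.compH ε h))

namespace GenBase

variable (B : GenBase M Γ P) (X : GenExpansion B)

/-- the ring hom `ℚ̄[S] → ℂ((z))`, `r ↦ E (e r ∘ g⁻¹)` -/
def sG (g : SL(2, ℤ)) : P.RG →+* LaurentSeries ℂ :=
  X.E.comp ((B.compH g⁻¹).comp B.bridge)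

theorem sG_apply (g : SL(2, ℤ)) (r : P.RG) :
    B.sG X g r = X.E (B.compH g⁻¹ (B.bridge r)) := rfl

theorem sG_injective (g : SL(2, ℤ)) : Function.Injective (B.sG X g) :=
  X.inj.comp ((B.compH_injective g⁻¹).comp B.bridge_injective)

/-- the embedding `F → ℂ((z))` attached to `g` -/
def sigmaG (g : SL(2, ℤ)) : P.F →+* LaurentSeries ℂ :=
  GenField.liftF (B.sG X g) (B.sG_injective X g)

theorem sigmaG_inclRG (g : SL(2, ℤ)) (r : P.RG) :
    B.sigmaG X g (P.inclRG r) = X.E (B.compH g⁻¹ (B.bridge r)) :=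
  GenField.liftF_inclRG _ _ r

theorem sigmaG_algebraMap (g : SL(2, ℤ)) (c : Kbar) :
    B.sigmaG X g (algebraMap Kbar P.F c) = HahnSeries.C (ιK c) := by
  rw [sigmaG, GenField.liftF_algebraMap, sG_apply, bridge_algebraMap, compH_constH, X.const]

theorem sigmaG_genF (g : SL(2, ℤ)) {s : LaurentSeries Kbar} (hs : s ∈ P.S) :
    B.sigmaG X g (P.genF hs) = X.E (B.compH g⁻¹ (B.GH hs)) := by
  rw [← GenField.inclRG_genR, sigmaG_inclRG, bridge_genR]

theorem sigmaG_jF (g : SL(2, ℤ)) :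
    B.sigmaG X g P.jF = X.E B.JH := by
  rw [← GenField.inclRG_genR_j, sigmaG_inclRG, bridge_genR_j, compH_JH]

theorem sG_mul_of_mem (g : SL(2, ℤ)) {δ : SL(2, ℤ)} (hδ : δ ∈ Γ) :
    B.sG X (g * δ) = B.sG X g := by
  ext1 r
  rw [sG_apply, sG_apply, mul_inv_rev, compH_mul,
    B.compH_bridge_of_mem (inv_mem hδ)]

theorem sigmaG_mul_of_mem (g : SL(2, ℤ)) {δ : SL(2, ℤ)}
    (hδ : δ ∈ Γ) : B.sigmaG X (g * δ) = B.sigmaG X g := by
  unfold sigmaG
  congr 1
  exact B.sG_mul_of_mem X g hδ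

theorem sigmaG_eq_of_mk_eq {g g' : SL(2, ℤ)}
    (h : (g : XG Γ) = (g' : XG Γ)) : B.sigmaG X g = B.sigmaG X g' := by
  have hmem : g⁻¹ * g' ∈ Γ := QuotientGroup.eq.mp h
  have := B.sigmaG_mul_of_mem X g hmem
  rw [mul_inv_cancel_left] at this
  exact this.symm

/-- the embedding attached to a coset -/
def sigmaX (x : XG Γ) : P.F →+* LaurentSeries ℂ := B.sigmaG X (Quotient.out x)

theorem sigmaX_mk (g : SL(2, ℤ)) : B.sigmaX X (g : XG Γ) = B.sigmaG X g :=
  B.sigmaG_eq_of_mk_eq X (QuotientGroup.out_eq' _)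

theorem sigmaX_injective : Function.Injective (B.sigmaX X) := by
  intro x y hxy
  obtain ⟨g, rfl⟩ := QuotientGroup.mk_surjective x
  obtain ⟨g', rfl⟩ := QuotientGroup.mk_surjective y
  rw [sigmaX_mk, sigmaX_mk] at hxy
  apply QuotientGroup.eq.mpr
  apply B.G_distinct
  intro s hs τ
  have h1 := congrArg (fun σ => σ (P.genF hs)) hxy
  simp only [sigmaG_genF] at h1
  have h2 := X.inj h1
  have h3 := congrArg (fun h : B.Hol => (h : ℍ → ℂ) (g' • τ)) h2
  simp only [compH_apply] at h3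
  rw [← mul_smul, ← mul_smul, inv_mul_cancel, one_smul] at h3
  exact h3

theorem rotRel_sigmaG (ε : SL(2, ℤ)) (R : GenRotData B X ε) (g : SL(2, ℤ)) (f : P.F) :
    RotRel R.ζ (B.sigmaG X g f) (B.sigmaG X (ε⁻¹ * g) f) := by
  have hζ : R.ζ ≠ 0 := R.hζ.ne_zero R.m_pos.ne'
  obtain ⟨r, t, -, rfl⟩ := P.exists_div_inclRG f
  rw [map_div₀, map_div₀]
  have key : ∀ r : P.RG, RotRel R.ζ (B.sigmaG X g (P.inclRG r))
      (B.sigmaG X (ε⁻¹ * g) (P.inclRG r)) := by
    intro r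
    rw [sigmaG_inclRG, sigmaG_inclRG, mul_inv_rev, inv_inv, compH_mul]
    exact R.rot _
  exact (key r).div hζ (key t)

/-- `LocalData` from an expansion with rotation data. -/
def mkLocalData (ε : SL(2, ℤ)) (R : GenRotData B X ε) (t : P.F) (u : LaurentSeries ℂ)
    (ht : ∀ g : SL(2, ℤ), B.sigmaG X g t = u) (hu : u.order = (R.m : ℤ)) :
    LocalData Kbar P.F ℂ (XG Γ) t where
  m := R.m
  m_pos := R.m_pos
  ζ := R.ζ
  hζ := R.hζ
  ι := ιK
  perm := permG Γ ε⁻¹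
  σ := B.sigmaX X
  σ_inj := B.sigmaX_injective X
  σ_const x c := B.sigmaG_algebraMap X _ c
  σ_t_eq x y := by
    show B.sigmaG X _ t = B.sigmaG X _ t
    rw [ht, ht]
  σ_t_order x := by
    show (B.sigmaG X _ t).order = _
    rw [ht, hu]
  σ_perm_order x f := by
    obtain ⟨g, rfl⟩ := QuotientGroup.mk_surjective x
    have h : permG Γ ε⁻¹ (g : XG Γ) = ((ε⁻¹ * g : SL(2, ℤ)) : XG Γ) := rfl
    rw [h, sigmaX_mk, sigmaX_mk]
    exact (B.rotRel_sigmaG X ε R g f).1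
  σ_perm_leadingCoeff x f := by
    obtain ⟨g, rfl⟩ := QuotientGroup.mk_surjective x
    have h : permG Γ ε⁻¹ (g : XG Γ) = ((ε⁻¹ * g : SL(2, ℤ)) : XG Γ) := rfl
    rw [h, sigmaX_mk, sigmaX_mk]
    exact (B.rotRel_sigmaG X ε R g f).2

@[simp] theorem mkLocalData_perm (ε : SL(2, ℤ)) (R : GenRotData B X ε) (t : P.F)
    (u : LaurentSeries ℂ) (ht : ∀ g : SL(2, ℤ), B.sigmaG X g t = u)
    (hu : u.order = (R.m : ℤ)) :
    (B.mkLocalData X ε R t u ht hu).perm = permG Γ ε⁻¹ := rfl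

@[simp] theorem mkLocalData_σ (ε : SL(2, ℤ)) (R : GenRotData B X ε) (t : P.F)
    (u : LaurentSeries ℂ) (ht : ∀ g : SL(2, ℤ), B.sigmaG X g t = u)
    (hu : u.order = (R.m : ℤ)) :
    (B.mkLocalData X ε R t u ht hu).σ = B.sigmaX X := rfl

@[simp] theorem mkLocalData_m (ε : SL(2, ℤ)) (R : GenRotData B X ε) (t : P.F)
    (u : LaurentSeries ℂ) (ht : ∀ g : SL(2, ℤ), B.sigmaG X g t = u)
    (hu : u.order = (R.m : ℤ)) :
    (B.mkLocalData X ε R t u ht hu).m = R.m := rfl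

end GenBase

end Fermat.Agent.S48.H332
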