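import Fermat.Agent.S48.H332.PkgTaylor

/-!
# Tower A1 / A1-FF, piece PKG-GEN (helper332) — the concrete generic package

`GenData M Γ P` = the analytic INPUT for a field `P.F = ℚ̄(S)` of modular functions for `Γ`:
for every generator `s ∈ S` an avatar `G s ∈ S24.holN M` (holomorphic on `ℍ`, every
`SL₂(ℤ)`-translate has an expansion in `exp(2πiτ/M)`), `Γ`-invariant, with expansion `s(z^M)` at
`i∞`, the avatar of `j` being the `j`-function, and the avatars jointly distinguishing the cosets
of `Γ`.

OUTPUT: `GenData.core : GenCore M Γ P` (the generic analytic core, with `Hol = holN M`), hence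
`GenData.package hfd hle : GenPackage M Γ P` from the degree bound
`[F : ℚ̄(j)] ≤ |SL₂(ℤ)/Γ|`, and `card_le_finrank` unconditionally.
-/

set_option autoImplicit false
set_option linter.style.haveILetI false
set_option linter.unusedVariables false
set_option linter.unusedSectionVars false

noncomputable section

open ModularCurve HahnSeries UpperHalfPlane ModularForm EisensteinSeries
open scoped MatrixGroups Manifold Real

namespace Fermat.Agent.S48.H332

open Fermat.Agent.S24 Fermat.Agent.S24.H997
open Fermat.Agent.S24.H624 Fermat.Agent.S20.L1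

/-- From the `q`-expansion (`q = exp(2πiτ)`) to the expansion in `z = exp(2πiτ/M)`. -/
theorem infExp_level {f : ℍ → ℂ} {φ : LaurentSeries ℂ} (hf : InfExp 1 f φ) (M : ℕ) [NeZero M] :
    InfExp M f (qExpand ℂ M φ) := by
  have hM : 0 < M := Nat.pos_of_ne_zero (NeZero.ne M)
  have h := hf.comp_infAff (M := 1) (N := M) (a := 1) (d := 1) (e := M) 0 one_pos one_pos
    one_pos hM (by ring)
  rw [infRoot_zero, infTwist_one] at h
  refine h.congr fun τ => ?_
  congr 1
  apply UpperHalfPlane.ext
  rw [infAff_coe one_pos one_pos]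
  simp

/-- From the `q`-expansion with coefficients in `ℚ̄` to the expansion `Φ M s`. -/
theorem infExp_Φ {f : ℍ → ℂ} {s : LaurentSeries Kbar} (hf : InfExp 1 f (coeffMap ιK s))
    (M : ℕ) [NeZero M] : InfExp M f (HolBase.Φ M s) :=
  infExp_level hf M

/-- **Analytic input** for a field of modular functions for `Γ` generated by `P.S`. -/
structure GenData (M : ℕ) [NeZero M] (Γ : Subgroup SL(2, ℤ)) (P : GenField) where
  /-- the avatar of a generator -/
  G : LaurentSeries Kbar → ℍ → ℂ
  G_mem : ∀ s, s ∈ P.S → G s ∈ holN M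
  G_j : G jBar = jFun
  G_inv : ∀ s, s ∈ P.S → ∀ g ∈ Γ, ∀ τ : ℍ, G s (g • τ) = G s τ
  G_distinct : ∀ g : SL(2, ℤ), (∀ s, s ∈ P.S → ∀ τ : ℍ, G s (g • τ) = G s τ) → g ∈ Γ
  G_exp : ∀ s, s ∈ P.S → InfExp M (G s) (HolBase.Φ M s)

namespace GenData

variable {M : ℕ} [NeZero M] {Γ : Subgroup SL(2, ℤ)} {P : GenField} (D : GenData M Γ P)

/-- **The concrete `GenBase`**, with `Hol = holN M`. -/
def base : GenBase M Γ P where
  Hol := holN M
  const_mem := const_mem_holN M
  comp_mem := comp_mem_holN M
  G := D.G
  G_mem := D.G_mem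
  G_j_inv g τ := by rw [D.G_j]; exact jFun_smul' g τ
  G_inv := D.G_inv
  G_distinct := D.G_distinct
  qexp := (expInf M).comp (holToExp M)
  qexp_injective := expInf_injective.comp (holToExp_injective M)
  qexp_const c := (InfExp.const c).expInf_eq
  qexp_G s hs := (D.G_exp s hs).expInf_eq

@[simp] theorem base_Hol : D.base.Hol = holN M := rfl

theorem base_qexp_spec (h : D.base.Hol) : InfExp M (h : ℍ → ℂ) (D.base.qexp h) :=
  expInf_spec (holToExp M h)

theorem base_isHolo : D.base.IsHolo where
  mdiff f hf := hf.1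
  G_j := D.G_j

theorem base_shift (h : D.base.Hol) (n : ℤ) :
    (D.base.qexp (D.base.compH ModularGroup.T h)).coeff n
      = ((infRoot 1 M : ℂˣ) : ℂ) ^ n * (D.base.qexp h).coeff n := by
  have hf : InfExp M (h : ℍ → ℂ) (D.base.qexp h) := expInf_spec (holToExp M h)
  have hT := hf.comp_translate 1
  have hT' : InfExp M ((D.base.compH ModularGroup.T h : D.base.Hol) : ℍ → ℂ)
      (infTwist (infRoot 1 M) (D.base.qexp h)) := by
    refine hT.congr fun τ => ?_
    show (h : ℍ → ℂ) (infAff 1 1 1 τ) = (h : ℍ → ℂ) (ModularGroup.T • τ)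
    rw [T_smul_eq_infAff]
  have heq : D.base.qexp (D.base.compH ModularGroup.T h)
      = infTwist (infRoot 1 M) (D.base.qexp h) :=
    (expInf_spec (holToExp M (D.base.compH ModularGroup.T h))).unique hT'
  rw [heq, infTwist_coeff, Units.val_zpow_eq_zpow_val, mul_comm]

/-- **The generic analytic core exists.** -/
def core : GenCore M Γ P :=
  D.base.toGenCore D.base_isHolo _ (isPrimitiveRoot_infRoot M) D.base_shift

@[simp] theorem core_toGenBase : D.core.toGenBase = D.base := rfl

/-- `|SL₂(ℤ)/Γ| ≤ [F : ℚ̄(j)]`. -/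
theorem card_le_finrank (D : GenData M Γ P)
    [FiniteDimensional ↥(IntermediateField.adjoin Kbar {P.jF}) P.F] :
    Nat.card (XG Γ) ≤ Module.finrank ↥(IntermediateField.adjoin Kbar {P.jF}) P.F :=
  GenCore.card_le_finrank D.core

/-- **The generic modular package** from the analytic input and the degree bound. -/
def package (hfd : FiniteDimensional ↥(IntermediateField.adjoin Kbar {P.jF}) P.F)
    (hle : Module.finrank ↥(IntermediateField.adjoin Kbar {P.jF}) P.F ≤ Nat.card (XG Γ)) :
    GenPackage M Γ P :=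
  D.core.toPackage hfd hle

/-! ### The embeddings of the package, analytically -/

/-- the bridge sends `r ∈ ℚ̄[S]` to THE function in `holN M` with expansion `Φ r` at `i∞` -/
theorem infExp_bridge (r : P.RG) :
    InfExp M (D.base.bridge r : ℍ → ℂ) (HolBase.Φ M (r : LaurentSeries Kbar)) := by
  have h := D.base_qexp_spec (D.base.bridge r)
  rwa [D.base.qexp_bridge] at h

/-- the expansion at `i∞` of the `g`-th conjugate: `σ_g (r) = qexp (e r ∘ g⁻¹)` -/
theorem infExp_sigmaG (g : SL(2, ℤ)) (r : P.RG) :
    InfExp M (compSL g⁻¹ (D.base.bridge r : ℍ → ℂ))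
      (D.base.sigmaG D.base.qexpExpansion g (P.inclRG r)) := by
  rw [GenBase.sigmaG_inclRG]
  exact D.base_qexp_spec _

end GenData

end Fermat.Agent.S48.H332
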