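import Fermat.Agent.S48.Red1.Asm
import Fermat.Agent.S48.H332.F1Inst

/-!
# S48 / Tower A1 / A1-RED — leaf `finite` of `Red1.TopLeaves` (helper332)

* `isAlgebraic_trans_subfield332`, `finite_of_closure332` : abstract field theory with `Subfield`s;
* `topFinite_of_gens` : GENERIC in `F₀ = ℚ(S₀)`, `S₀` finite, `ℚ̄ · F₀` algebraic over `ℚ̄(j)`:
  the field `finite` of `Red1.TopLeaves F₀ A E w₀ j` for EVERY subfield `E` of `ℚ̄`;
* `topFinite_F1` : the instance `F₀ = F1 M` (verbatim the field `finite` of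
  `Red1.TopLeaves (F1 M) A E w₀ (iotaG M (F1 M) (full_le_F1 M) (jOm M))`);
* `finiteDimensional_iotaG_j_F1` : `ℚ̄ · F1 M` is finite over `ℚ̄(j)` (instance argument of
  `Red1.coreGen_top` at the coordinate `j`).
-/

set_option autoImplicit false

noncomputable section

namespace Fermat.Agent.S48.H332

open ModularCurve AlgebraicCurve HahnSeries

section Abstract

variable {Ω : Type*} [Field Ω]

/-- Algebraicity climbs along an inclusion of subfields. -/
theorem isAlgebraic_of_subfield_le332 {K L : Subfield Ω} (h : K ≤ L) {x : Ω}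
    (hx : IsAlgebraic K x) : IsAlgebraic L x := by
  obtain ⟨p, hp0, hp⟩ := hx
  refine ⟨p.map (Subfield.inclusion h),
    (Polynomial.map_ne_zero_iff (Subfield.inclusion h).injective).mpr hp0, ?_⟩
  rw [Polynomial.aeval_def, Polynomial.eval₂_map]
  rw [Polynomial.aeval_def] at hp
  exact hp

/-- Transitivity of algebraicity for subfields of a field (no inclusion needed). -/
theorem isAlgebraic_trans_subfield332 {K L : Subfield Ω} (hL : ∀ y ∈ L, IsAlgebraic K y) {x : Ω}
    (hx : IsAlgebraic L x) : IsAlgebraic K x := by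
  have hLB : L ≤ (algebraicClosure K Ω).toSubfield :=
    fun y hy => mem_algebraicClosure_iff.mpr (hL y hy)
  have hxB : IsAlgebraic (algebraicClosure K Ω).toSubfield x :=
    isAlgebraic_of_subfield_le332 hLB hx
  have hxB' : IsAlgebraic (algebraicClosure K Ω) x := hxB
  exact IsAlgebraic.restrictScalars K hxB'

/-- The elements of a subfield closure are algebraic as soon as the generators are. -/
theorem isAlgebraic_of_mem_closure332 {K : Subfield Ω} {T : Set Ω}
    (hT : ∀ y ∈ T, IsAlgebraic K y) {x : Ω} (hx : x ∈ Subfield.closure T) : IsAlgebraic K x := by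
  have h : Subfield.closure T ≤ (algebraicClosure K Ω).toSubfield :=
    Subfield.closure_le.mpr fun y hy => mem_algebraicClosure_iff.mpr (hT y hy)
  exact mem_algebraicClosure_iff.mp (h hx)

/-- A subfield generated over `K` by finitely many algebraic elements is a finite `K`-module. -/
theorem finite_of_closure332 (K F : Subfield Ω) (T : Set Ω) (hT : T.Finite)
    (hF : F = Subfield.closure ((K : Set Ω) ∪ T)) (halg : ∀ y ∈ T, IsAlgebraic K y) :
    ∃ s : Finset Ω, (s : Set Ω) ⊆ F ∧ ∀ f ∈ F, f ∈ Submodule.span K (s : Set Ω) := by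
  classical
  set L := IntermediateField.adjoin K T with hLdef
  have hFL : (F : Set Ω) = (L : Set Ω) := by
    apply Set.Subset.antisymm
    · have : F ≤ L.toSubfield := by
        rw [hF]
        refine Subfield.closure_le.mpr ?_
        rintro y (hy | hy)
        · exact IntermediateField.algebraMap_mem L (⟨y, hy⟩ : K)
        · exact IntermediateField.subset_adjoin _ _ hy
      exact this
    · intro y hy
      have hK : K ≤ F := by
        rw [hF]
        exact fun z hz => Subfield.subset_closure (Or.inl hz)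
      have h : L ≤ Subfield.toIntermediateField F (fun x => hK x.2) := by
        rw [hLdef, IntermediateField.adjoin_le_iff]
        intro z hz
        show z ∈ F
        rw [hF]
        exact Subfield.subset_closure (Or.inr hz)
      exact h hy
  haveI : Finite T := hT.to_subtype
  have hint : ∀ y ∈ T, IsIntegral K y := fun y hy => (halg y hy).isIntegral
  haveI hfd : FiniteDimensional K L := IntermediateField.finiteDimensional_adjoin hint
  obtain ⟨s, hs⟩ := (Module.finite_def (R := K) (M := L)).mp hfd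
  refine ⟨s.image (fun y : L => (y : Ω)), ?_, ?_⟩
  · intro y hy
    rw [Finset.coe_image] at hy
    obtain ⟨z, -, rfl⟩ := hy
    have h0 : (z : Ω) ∈ (L : Set Ω) := z.2
    rw [← hFL] at h0
    exact h0
  · intro f hf
    have hfL : f ∈ L := by
      have h0 : f ∈ (L : Set Ω) := by
        rw [← hFL]; exact hf
      exact h0
    have h1 : (⟨f, hfL⟩ : L) ∈ Submodule.span K (s : Set L) := by
      rw [hs]; exact Submodule.mem_top
    have h2 := Submodule.mem_map_of_mem (f := (L.val.toLinearMap : L →ₗ[K] Ω)) h1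
    rw [Submodule.map_span] at h2
    rw [Finset.coe_image]
    exact h2

end Abstract

section Generic

open Fermat.Agent.S18 Fermat.Agent.S18.Alg Fermat.Agent.S18.Mod Fermat.Agent.S48.Red1
  Fermat.Agent.S48.H248

variable {F₀ : IntermediateField ℚ (LaurentSeries ℚ)}

theorem charZero_subfield332 {Ω : Type*} [Field Ω] [CharZero Ω] (K : Subfield Ω) : CharZero K :=
  ⟨fun m n h => by
    have h' := congrArg (K.subtype) h
    simpa using h'⟩

/-- The constants are algebraic over every subfield of `Ω'`. -/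
theorem isAlgebraic_cstG332 (K : Subfield (OmG F₀)) (c : Qb) : IsAlgebraic K (cstG F₀ c) := by
  haveI : CharZero (OmG F₀) := charZero_of_injective_algebraMap (algebraMap Qb (OmG F₀)).injective
  haveI : CharZero K := charZero_subfield332 K
  have hc : IsAlgebraic ℚ c := (AlgebraicClosure.isAlgebraic ℚ).isAlgebraic c
  refine hc.ringHom_of_comp_eq (algebraMap ℚ K) (cstG F₀) (algebraMap ℚ K).injective ?_
  exact RingHom.ext_rat _ _

/-- Every element of `ℚ̄(j)` is algebraic over `E(j)`. -/
theorem isAlgebraic_of_mem_adjoin332 (E : Subfield Qb) (j : OmG F₀) :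
    ∀ y ∈ (IntermediateField.adjoin Qb {j}).toSubfield,
      IsAlgebraic (ratField (EcG E (cstG F₀)) j) y := by
  intro y hy
  rw [IntermediateField.adjoin_toSubfield] at hy
  refine isAlgebraic_of_mem_closure332 ?_ hy
  rintro z (⟨c, rfl⟩ | hz)
  · exact isAlgebraic_cstG332 _ c
  · rw [Set.mem_singleton_iff] at hz
    rw [hz]
    have hj : j ∈ ratField (EcG E (cstG F₀)) j := Subfield.subset_closure (Or.inr rfl)
    exact isAlgebraic_algebraMap (⟨j, hj⟩ : ratField (EcG E (cstG F₀)) j)

/-- If `Ω'` is algebraic over `ℚ̄(j)` then it is algebraic over `E(j)`. -/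
theorem isAlgebraic_ratField332 (E : Subfield Qb) (j : OmG F₀)
    (halg : Algebra.IsAlgebraic (IntermediateField.adjoin Qb {j}) (OmG F₀)) (x : OmG F₀) :
    IsAlgebraic (ratField (EcG E (cstG F₀)) j) x := by
  have hx : IsAlgebraic (IntermediateField.adjoin Qb {j}).toSubfield x := halg.isAlgebraic x
  exact isAlgebraic_trans_subfield332 (isAlgebraic_of_mem_adjoin332 E j) hx

/-- `embG` of an element of `ℚ(S₀)` lies in every subfield of `Ω'` containing `embG S₀`. -/
theorem embG_mem_of_gens332 (S₀ : Set (LaurentSeries ℚ)) (hF₀ : F₀ = IntermediateField.adjoin ℚ S₀)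
    (C : Subfield (OmG F₀))
    (hC : ∀ (s : LaurentSeries ℚ) (hs : s ∈ F₀), s ∈ S₀ → embG F₀ ⟨s, hs⟩ ∈ C) (g : F₀) :
    embG F₀ g ∈ C := by
  have hle : F₀.toSubfield ≤ (C.map (exG F₀)).comap (coeffEmb Qb) := by
    have h1 : F₀.toSubfield = (IntermediateField.adjoin ℚ S₀).toSubfield :=
      congrArg IntermediateField.toSubfield hF₀
    rw [h1, IntermediateField.adjoin_toSubfield, Subfield.closure_le]
    rintro z (⟨r, rfl⟩ | hz)
    · show coeffEmb Qb (algebraMap ℚ (LaurentSeries ℚ) r) ∈ C.map (exG F₀)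
      rw [eq_ratCast, map_ratCast]
      exact SubfieldClass.ratCast_mem _ r
    · have hzF : z ∈ F₀ := by
        rw [hF₀]; exact IntermediateField.subset_adjoin ℚ _ hz
      exact ⟨embG F₀ ⟨z, hzF⟩, hC z hzF hz, rfl⟩
  obtain ⟨y, hy, hyg⟩ := hle g.2
  have : y = embG F₀ g := Subtype.ext hyg
  rw [← this]
  exact hy

/-- **Leaf `finite` of `Red1.TopLeaves`, generic form.**  If `F₀ = ℚ(S₀)` with `S₀` finite and
`ℚ̄ · F₀` is algebraic over `ℚ̄(j)`, `j ∈ E · F₀`, then `E · F₀` is finite over `E(j)`. -/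
theorem topFinite_of_gens (S₀ : Set (LaurentSeries ℚ)) (hS₀ : S₀.Finite)
    (hF₀ : F₀ = IntermediateField.adjoin ℚ S₀) (E : Subfield Qb) (j : OmG F₀)
    (hj : j ∈ FcT F₀ E)
    (halg : Algebra.IsAlgebraic (IntermediateField.adjoin Qb {j}) (OmG F₀)) :
    ∃ s : Finset (OmG F₀), (s : Set (OmG F₀)) ⊆ FcT F₀ E ∧
      ∀ f ∈ FcT F₀ E, f ∈ Submodule.span (ratField (EcG E (cstG F₀)) j) (s : Set (OmG F₀)) := by
  classical
  have hmem : ∀ s : S₀, (s : LaurentSeries ℚ) ∈ F₀ := fun s => by
    rw [hF₀]; exact IntermediateField.subset_adjoin ℚ _ s.2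
  set T : Set (OmG F₀) := Set.range (fun s : S₀ => embG F₀ ⟨s.1, hmem s⟩) with hT
  haveI : Finite S₀ := hS₀.to_subtype
  have hTfin : T.Finite := Set.finite_range _
  set K := ratField (EcG E (cstG F₀)) j with hK
  have hKF : K ≤ FcT F₀ E := by
    rw [hK]
    unfold ratField
    rw [Subfield.closure_le]
    rintro y (hy | hy)
    · exact EcG_le_FcT E hy
    · rw [Set.mem_singleton_iff] at hy
      rw [hy]; exact hj
  have hF : FcT F₀ E = Subfield.closure ((K : Set (OmG F₀)) ∪ T) := by
    apply le_antisymm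
    · unfold FcT
      rw [Subfield.closure_le]
      rintro y (hy | ⟨g, rfl⟩)
      · exact Subfield.subset_closure (Or.inl (Subfield.subset_closure (Or.inl hy)))
      · refine embG_mem_of_gens332 S₀ hF₀ _ ?_ g
        intro s hs hsS
        exact Subfield.subset_closure (Or.inr ⟨⟨s, hsS⟩, rfl⟩)
    · rw [Subfield.closure_le]
      rintro y (hy | ⟨s, rfl⟩)
      · exact hKF hy
      · exact embG_mem_FcT E _
  exact finite_of_closure332 K (FcT F₀ E) T hTfin hF
    (fun y _ => isAlgebraic_ratField332 E j halg y)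

end Generic

section F1

open Fermat.Agent.S18 Fermat.Agent.S18.Alg Fermat.Agent.S18.Mod Fermat.Agent.S48.Red1
  Fermat.Agent.S48.H248 Fermat.Agent.S48.F1

theorem finite_divisorExpansions332 (M : ℕ) [NeZero M] : (divisorExpansions M).Finite := by
  classical
  refine ((M.divisors : Set ℕ).toFinite.image
    (fun d => if h : d = 0 then (0 : LaurentSeries ℚ) else
      haveI : NeZero d := ⟨h⟩
      qExpand ℚ d jq)).subset ?_
  rintro x ⟨d, hne, hd, rfl⟩
  refine ⟨d, ?_, ?_⟩
  · exact Finset.mem_coe.mpr (Nat.mem_divisors.mpr ⟨hd, NeZero.ne M⟩)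
  · simp only
    rw [dif_neg (NeZero.ne d)]

theorem finite_divGens332 (M : ℕ) [NeZero M] : (divGens M).Finite := by
  refine ((Set.finite_univ (α := ZMod M)).image (fun a => divGen M a)).subset ?_
  rintro x ⟨a, -, rfl⟩
  exact ⟨a, Set.mem_univ _, rfl⟩

theorem finite_f1Gens (M : ℕ) [NeZero M] : (f1Gens M).Finite :=
  (finite_divisorExpansions332 M).union (finite_divGens332 M)

/-- The coordinate `j` of `Ω' = ℚ̄ · F1 M` used by `Red1` is `f1J M`. -/
theorem iotaG_jOm_F1 (M : ℕ) [NeZero M] (hle : modularFunctionFieldFull M ≤ F1 M) :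
    iotaG M (F1 M) hle (jOm M) = f1J M := by
  apply Subtype.ext
  rw [coe_iotaG, coe_f1J]
  show coeffEmb Qb (qExpand ℚ 1 jq) = _
  rw [qExpand_one_apply]

/-- `ℚ̄ · F1 M` is finite over `ℚ̄(j)`, `j` the coordinate of `Red1` (instance argument of
`Red1.coreGen_top` for `x = j`). -/
theorem finiteDimensional_iotaG_j_F1 (M : ℕ) [NeZero M]
    (hle : modularFunctionFieldFull M ≤ F1 M) :
    FiniteDimensional (IntermediateField.adjoin Qb {iotaG M (F1 M) hle (jOm M)})
      (OmG (F1 M)) := by
  rw [iotaG_jOm_F1]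
  exact f1_finiteDimensional M

/-- **Leaf `finite` of `Red1.TopLeaves (F1 M) A E w₀ j`** (verbatim; every subfield `E` of `ℚ̄`,
every level `M ≥ 1`). -/
theorem topFinite_F1 (M : ℕ) [NeZero M] (hle : modularFunctionFieldFull M ≤ F1 M)
    (E : Subfield Qb) :
    ∃ s : Finset (OmG (F1 M)), (s : Set (OmG (F1 M))) ⊆ FcT (F1 M) E ∧
      ∀ f ∈ FcT (F1 M) E, f ∈ Submodule.span
        (ratField (EcG E (cstG (F1 M))) (iotaG M (F1 M) hle (jOm M))) (s : Set (OmG (F1 M))) := by
  haveI := finiteDimensional_iotaG_j_F1 M hle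
  have halg : Algebra.IsAlgebraic (IntermediateField.adjoin Qb {iotaG M (F1 M) hle (jOm M)})
      (OmG (F1 M)) := Algebra.IsAlgebraic.of_finite _ _
  refine topFinite_of_gens (F₀ := F1 M) (f1Gens M) (finite_f1Gens M) rfl E _ ?_ halg
  have h : jOm M = jd M 1 (one_dvd M) := rfl
  rw [h, iotaG_jd]
  exact embG_mem_FcT _ _

end F1

end Fermat.Agent.S48.H332
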